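import Fermat.Agent.T1.CechFormal70.Functorial

/-!
# Čech formal group: Theorem 3 (the group law is given by universal polynomials)

Universal pair `UR τ N = W[T_j : j ∈ τ] / (T)^N`, `Um τ N = (T)`.  **Yoneda lemma**
(`CechData.exists_poly`): every `z ∈ Ĵ(UR τ N, Um τ N)` is given by polynomials `G i ∈ (T)` over
`W`: for every `(R, m)` with `m^N = 0` and `a : τ → m`, the image of `z` under `T ↦ a` is
`φ (aeval a ∘ G)`.  Applied to `z = φ(T) · φ(T')` this gives the group law polynomials `D.F N`,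
to `z = φ(T)⁻¹` the inverse polynomials `D.Inv N`.
(helper70, T1a brick G3 FORMAL.)
-/

set_option autoImplicit false

namespace Fermat.Agent.T1.CechFormal70

open scoped BigOperators TensorProduct
open MvPolynomial

section Universal

variable (W : Type*) [CommRing W] (τ : Type*)

/-- The augmentation ideal `(T_j : j ∈ τ)` of `W[T]`. -/
noncomputable def aug : Ideal (MvPolynomial τ W) := Ideal.span (Set.range X)

/-- The universal ring `W[T] / (T)^N`. -/
abbrev UR (N : ℕ) : Type _ := MvPolynomial τ W ⧸ (aug W τ) ^ N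

/-- The universal nilpotent ideal `(T) ⊆ UR`. -/
noncomputable def Um (N : ℕ) : Ideal (UR W τ N) := (aug W τ).map (Ideal.Quotient.mk ((aug W τ) ^ N))

theorem Um_pow (N : ℕ) : (Um W τ N) ^ N = ⊥ := by
  unfold Um
  rw [← Ideal.map_pow, Ideal.map_quotient_self]

theorem Um_nilpotent (N : ℕ) : IsNilpotent (Um W τ N) := ⟨N, Um_pow W τ N⟩

/-- The universal point `T_j ∈ Um`. -/
noncomputable def uX (N : ℕ) (j : τ) : Um W τ N :=
  ⟨Ideal.Quotient.mk _ (X j), Ideal.mem_map_of_mem _ (Ideal.subset_span ⟨j, rfl⟩)⟩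

variable {W τ}

variable {R : Type*} [CommRing R] [Algebra W R]

theorem aeval_mem_of_mem_aug {m : Ideal R} {a : τ → R} (ha : ∀ j, a j ∈ m)
    {p : MvPolynomial τ W} (hp : p ∈ aug W τ) : aeval a p ∈ m := by
  have : aug W τ ≤ m.comap (aeval a : MvPolynomial τ W →ₐ[W] R) := by
    unfold aug
    rw [Ideal.span_le]
    rintro _ ⟨j, rfl⟩
    simp only [SetLike.mem_coe, Ideal.mem_comap, aeval_X]
    exact ha j
  exact this hp

theorem aeval_eq_zero_of_mem_aug_pow {m : Ideal R} {N : ℕ} (hN : m ^ N = ⊥) {a : τ → R}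
    (ha : ∀ j, a j ∈ m) {p : MvPolynomial τ W} (hp : p ∈ (aug W τ) ^ N) : aeval a p = 0 := by
  have h1 : aug W τ ≤ m.comap (aeval a : MvPolynomial τ W →ₐ[W] R) :=
    fun p hp => aeval_mem_of_mem_aug ha hp
  have h2 : (aug W τ) ^ N ≤ (m ^ N).comap (aeval a : MvPolynomial τ W →ₐ[W] R) := by
    rw [← Ideal.map_le_iff_le_comap, Ideal.map_pow]
    exact Ideal.pow_right_mono (Ideal.map_le_iff_le_comap.2 h1) N
  have := h2 hp
  rwa [hN, Ideal.mem_comap, Ideal.mem_bot] at this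

/-- `m^N = ⊥` gives `IsNilpotent m` (named, so that rewriting under `φ` type-checks). -/
theorem nilp {m : Ideal R} {N : ℕ} (hN : m ^ N = ⊥) : IsNilpotent m := ⟨N, hN⟩

/-- The classifying map `UR τ N → R` of a point `a ∈ m^τ` (`m^N = 0`). -/
noncomputable def evalHom {m : Ideal R} {N : ℕ} (hN : m ^ N = ⊥) (a : τ → R)
    (ha : ∀ j, a j ∈ m) : UR W τ N →ₐ[W] R :=
  Ideal.Quotient.liftₐ _ (aeval a) fun _ hp => aeval_eq_zero_of_mem_aug_pow hN ha hp

@[simp] theorem evalHom_mk {m : Ideal R} {N : ℕ} (hN : m ^ N = ⊥) (a : τ → R)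
    (ha : ∀ j, a j ∈ m) (p : MvPolynomial τ W) :
    evalHom hN a ha (Ideal.Quotient.mk _ p) = aeval a p := rfl

theorem Um_le_comap_evalHom {m : Ideal R} {N : ℕ} (hN : m ^ N = ⊥) (a : τ → R)
    (ha : ∀ j, a j ∈ m) : Um W τ N ≤ m.comap ((evalHom hN a ha : UR W τ N →ₐ[W] R) : _ →+* R) := by
  unfold Um
  rw [Ideal.map_le_iff_le_comap]
  intro p hp
  rw [Ideal.mem_comap, Ideal.mem_comap]
  exact aeval_mem_of_mem_aug ha hp

end Universal

namespace CechData

variable {W : Type*} {B0 B1 B01 : Type*} [CommRing W] [CommRing B0] [CommRing B1]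
    [CommRing B01] [Algebra W B0] [Algebra W B1] [Algebra W B01] {g : ℕ}
    (D : CechData W B0 B1 B01 g)

section Yoneda

variable {τ : Type*} {N : ℕ}

theorem exists_lift_coord (z : (D.pkg (UR W τ N)).Jhat (Um W τ N)) (i : Fin g) :
    ∃ p ∈ aug W τ, Ideal.Quotient.mk ((aug W τ) ^ N) p
      = ((D.pkg (UR W τ N)).coord (Um_nilpotent W τ N) z i : UR W τ N) :=
  (Ideal.mem_map_iff_of_surjective _ Ideal.Quotient.mk_surjective).1
    ((D.pkg (UR W τ N)).coord (Um_nilpotent W τ N) z i).2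

/-- The polynomials (with zero constant term) representing a universal class `z`. -/
noncomputable def polyOf (z : (D.pkg (UR W τ N)).Jhat (Um W τ N)) (i : Fin g) :
    MvPolynomial τ W :=
  Classical.choose (D.exists_lift_coord z i)

theorem polyOf_mem (z : (D.pkg (UR W τ N)).Jhat (Um W τ N)) (i : Fin g) :
    D.polyOf z i ∈ aug W τ :=
  (Classical.choose_spec (D.exists_lift_coord z i)).1

theorem mk_polyOf (z : (D.pkg (UR W τ N)).Jhat (Um W τ N)) (i : Fin g) :
    Ideal.Quotient.mk ((aug W τ) ^ N) (D.polyOf z i)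
      = ((D.pkg (UR W τ N)).coord (Um_nilpotent W τ N) z i : UR W τ N) :=
  (Classical.choose_spec (D.exists_lift_coord z i)).2

/-- **Yoneda lemma**: the image of a universal class `z` under the classifying map of a point
`a ∈ m^τ` is `φ` of the values of the polynomials `polyOf z`. -/
theorem JhatMap_evalHom {R : Type*} [CommRing R] [Algebra W R] {m : Ideal R} (hN : m ^ N = ⊥)
    (a : τ → R) (ha : ∀ j, a j ∈ m) (z : (D.pkg (UR W τ N)).Jhat (Um W τ N)) :
    D.JhatMap (evalHom hN a ha) (Um_le_comap_evalHom hN a ha) z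
      = (D.pkg R).phi (nilp hN)
          (fun i => ⟨aeval a (D.polyOf z i), aeval_mem_of_mem_aug ha (D.polyOf_mem z i)⟩) := by
  conv_lhs => rw [← (D.pkg (UR W τ N)).phi_coord (Um_nilpotent W τ N) z]
  rw [D.JhatMap_phi (evalHom hN a ha) (Um_le_comap_evalHom hN a ha) (Um_nilpotent W τ N) (nilp hN)]
  congr 1
  funext i
  apply Subtype.ext
  show evalHom hN a ha _ = _
  rw [← D.mk_polyOf z i, evalHom_mk]

/-- The classifying map sends the universal point to `a`. -/
theorem JhatMap_evalHom_phi_uX {R : Type*} [CommRing R] [Algebra W R] {m : Ideal R}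
    (hN : m ^ N = ⊥) (a : τ → R) (ha : ∀ j, a j ∈ m) (ι : Fin g → τ) :
    D.JhatMap (evalHom hN a ha) (Um_le_comap_evalHom hN a ha)
        ((D.pkg (UR W τ N)).phi (Um_nilpotent W τ N) (fun i => uX W τ N (ι i)))
      = (D.pkg R).phi (nilp hN) (fun i => ⟨a (ι i), ha (ι i)⟩) := by
  rw [D.JhatMap_phi (evalHom hN a ha) (Um_le_comap_evalHom hN a ha) (Um_nilpotent W τ N) (nilp hN)]
  congr 1
  funext i
  apply Subtype.ext
  show evalHom hN a ha (Ideal.Quotient.mk _ (X (ι i))) = _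
  rw [evalHom_mk, aeval_X]

end Yoneda

theorem constantCoeff_eq_zero_of_mem_aug {τ : Type*} {p : MvPolynomial τ W}
    (hp : p ∈ aug W τ) : constantCoeff p = 0 := by
  have : aug W τ ≤ RingHom.ker (constantCoeff : MvPolynomial τ W →+* W) := by
    unfold aug
    rw [Ideal.span_le]
    rintro _ ⟨j, rfl⟩
    simp
  exact this hp

section GroupLaw

variable (N : ℕ)

/-- The universal product `φ(T) · φ(T')`. -/
noncomputable def univMul : (D.pkg (UR W (Fin g ⊕ Fin g) N)).Jhat (Um W (Fin g ⊕ Fin g) N) :=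
  (D.pkg (UR W (Fin g ⊕ Fin g) N)).phi (Um_nilpotent W _ N) (fun i => uX W _ N (Sum.inl i))
    * (D.pkg (UR W (Fin g ⊕ Fin g) N)).phi (Um_nilpotent W _ N) (fun i => uX W _ N (Sum.inr i))

/-- **The group law polynomials** `F_N ∈ W[T, T']^g` (modulo degree `N`). -/
noncomputable def F (i : Fin g) : MvPolynomial (Fin g ⊕ Fin g) W := D.polyOf (D.univMul N) i

theorem F_mem_aug (i : Fin g) : D.F N i ∈ aug W (Fin g ⊕ Fin g) := D.polyOf_mem _ i

theorem constantCoeff_F (i : Fin g) : constantCoeff (D.F N i) = 0 :=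
  constantCoeff_eq_zero_of_mem_aug (D.F_mem_aug N i)

/-- The universal inverse `φ(T)⁻¹`. -/
noncomputable def univInv : (D.pkg (UR W (Fin g) N)).Jhat (Um W (Fin g) N) :=
  ((D.pkg (UR W (Fin g) N)).phi (Um_nilpotent W _ N) (fun i => uX W _ N i))⁻¹

/-- **The inverse polynomials** `Inv_N ∈ W[T]^g` (modulo degree `N`). -/
noncomputable def Inv (i : Fin g) : MvPolynomial (Fin g) W := D.polyOf (D.univInv N) i

theorem Inv_mem_aug (i : Fin g) : D.Inv N i ∈ aug W (Fin g) := D.polyOf_mem _ i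

theorem constantCoeff_Inv (i : Fin g) : constantCoeff (D.Inv N i) = 0 :=
  constantCoeff_eq_zero_of_mem_aug (D.Inv_mem_aug N i)

variable {N}
variable {R : Type*} [CommRing R] [Algebra W R] {m : Ideal R}

theorem sumElim_mem (a a' : Fin g → m) (j : Fin g ⊕ Fin g) :
    Sum.elim (fun i => (a i : R)) (fun i => (a' i : R)) j ∈ m := by
  cases j with
  | inl i => exact (a i).2
  | inr i => exact (a' i).2

/-- The value `F_N(a, a') ∈ m^g`. -/
noncomputable def evF (a a' : Fin g → m) : Fin g → m := fun i =>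
  ⟨aeval (Sum.elim (fun i => (a i : R)) (fun i => (a' i : R))) (D.F N i),
    aeval_mem_of_mem_aug (sumElim_mem a a') (D.F_mem_aug N i)⟩

/-- The value `Inv_N(a) ∈ m^g`. -/
noncomputable def evInv (a : Fin g → m) : Fin g → m := fun i =>
  ⟨aeval (fun i => (a i : R)) (D.Inv N i),
    aeval_mem_of_mem_aug (fun i => (a i).2) (D.Inv_mem_aug N i)⟩

@[simp] theorem coe_evF (a a' : Fin g → m) (i : Fin g) :
    ((D.evF (N := N) a a' i : m) : R)
      = aeval (Sum.elim (fun i => (a i : R)) (fun i => (a' i : R))) (D.F N i) := rfl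

@[simp] theorem coe_evInv (a : Fin g → m) (i : Fin g) :
    ((D.evInv (N := N) a i : m) : R) = aeval (fun i => (a i : R)) (D.Inv N i) := rfl

/-- **Theorem 3**: `φ a · φ a' = φ (F_N(a, a'))` for every `(R, m)` with `m^N = 0`. -/
theorem phi_mul (hN : m ^ N = ⊥) (a a' : Fin g → m) :
    (D.pkg R).phi (nilp hN) a * (D.pkg R).phi (nilp hN) a'
      = (D.pkg R).phi (nilp hN) (D.evF (N := N) a a') := by
  have key := D.JhatMap_evalHom hN (Sum.elim (fun i => (a i : R)) (fun i => (a' i : R)))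
    (sumElim_mem a a') (D.univMul N)
  have h1 := D.JhatMap_evalHom_phi_uX hN (Sum.elim (fun i => (a i : R)) (fun i => (a' i : R)))
    (sumElim_mem a a') Sum.inl
  have h2 := D.JhatMap_evalHom_phi_uX hN (Sum.elim (fun i => (a i : R)) (fun i => (a' i : R)))
    (sumElim_mem a a') Sum.inr
  unfold univMul at key
  rw [map_mul, h1, h2] at key
  exact key

/-- **Theorem 3**, inverse: `(φ a)⁻¹ = φ (Inv_N(a))`. -/
theorem phi_inv (hN : m ^ N = ⊥) (a : Fin g → m) :
    ((D.pkg R).phi (nilp hN) a)⁻¹ = (D.pkg R).phi (nilp hN) (D.evInv (N := N) a) := by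
  have key := D.JhatMap_evalHom hN (fun i => (a i : R)) (fun i => (a i).2) (D.univInv N)
  have h1 := D.JhatMap_evalHom_phi_uX hN (fun i => (a i : R)) (fun i => (a i).2) id
  unfold univInv at key
  rw [map_inv] at key
  simp only [id] at h1
  rw [h1] at key
  exact key

end GroupLaw

section Corollaries

variable {N : ℕ} {R : Type*} [CommRing R] [Algebra W R] {m : Ideal R}

theorem _root_.Fermat.Agent.T1.CechFormal70.Pkg.phi_zero {R T0 T1 T01 : Type*} [CommRing R]
    [CommRing T0] [CommRing T1] [CommRing T01] [Algebra R T0] [Algebra R T1] [Algebra R T01]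
    {g : ℕ} (P : Pkg R T0 T1 T01 g) {m : Ideal R} (hm : IsNilpotent m) :
    P.phi hm 0 = 1 := by
  unfold Pkg.phi
  have : P.phiUnit hm 0 = 1 := by
    apply Subtype.ext
    apply Units.ext
    rw [P.coe_phiUnit]
    simp [Pkg.phiT]
  rw [this, map_one]

theorem evF_zero_right (hN : m ^ N = ⊥) (a : Fin g → m) : D.evF (N := N) a 0 = a := by
  apply (D.pkg R).phi_injective (nilp hN)
  rw [← D.phi_mul hN, (D.pkg R).phi_zero]
  exact mul_one ((D.pkg R).phi (nilp hN) a)

theorem evF_zero_left (hN : m ^ N = ⊥) (a : Fin g → m) : D.evF (N := N) 0 a = a := by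
  apply (D.pkg R).phi_injective (nilp hN)
  rw [← D.phi_mul hN, (D.pkg R).phi_zero]
  exact one_mul ((D.pkg R).phi (nilp hN) a)

theorem evF_comm (hN : m ^ N = ⊥) (a a' : Fin g → m) :
    D.evF (N := N) a a' = D.evF (N := N) a' a := by
  apply (D.pkg R).phi_injective (nilp hN)
  rw [← D.phi_mul hN, ← D.phi_mul hN]
  exact mul_comm ((D.pkg R).phi (nilp hN) a) ((D.pkg R).phi (nilp hN) a')

theorem evF_assoc (hN : m ^ N = ⊥) (a a' a'' : Fin g → m) :
    D.evF (N := N) (D.evF (N := N) a a') a'' = D.evF (N := N) a (D.evF (N := N) a' a'') := by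
  apply (D.pkg R).phi_injective (nilp hN)
  rw [← D.phi_mul hN, ← D.phi_mul hN, ← D.phi_mul hN, ← D.phi_mul hN]
  exact mul_assoc ((D.pkg R).phi (nilp hN) a) ((D.pkg R).phi (nilp hN) a')
    ((D.pkg R).phi (nilp hN) a'')

theorem evF_evInv (hN : m ^ N = ⊥) (a : Fin g → m) :
    D.evF (N := N) a (D.evInv (N := N) a) = 0 := by
  apply (D.pkg R).phi_injective (nilp hN)
  rw [← D.phi_mul hN, ← D.phi_inv hN, (D.pkg R).phi_zero]
  exact mul_inv_cancel ((D.pkg R).phi (nilp hN) a)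

/-- The coordinates are additive for the formal group law `F_N`. -/
theorem coord_mul (hN : m ^ N = ⊥) (z z' : (D.pkg R).Jhat m) :
    (D.pkg R).coord (nilp hN) (z * z')
      = D.evF (N := N) ((D.pkg R).coord (nilp hN) z) ((D.pkg R).coord (nilp hN) z') := by
  apply (D.pkg R).phi_injective (nilp hN)
  rw [← D.phi_mul hN, Pkg.phi_coord, Pkg.phi_coord, Pkg.phi_coord]

theorem coord_inv (hN : m ^ N = ⊥) (z : (D.pkg R).Jhat m) :
    (D.pkg R).coord (nilp hN) z⁻¹ = D.evInv (N := N) ((D.pkg R).coord (nilp hN) z) := by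
  apply (D.pkg R).phi_injective (nilp hN)
  rw [← D.phi_inv hN, Pkg.phi_coord, Pkg.phi_coord]

/-- Inclusion `m'^g → m^g` for `m' ≤ m`. -/
def incl {m' m : Ideal R} (h : m' ≤ m) (a : Fin g → m') : Fin g → m := fun i => ⟨a i, h (a i).2⟩

/-- Change of ideal: for `m' ≤ m`, the map `Ĵ(R, m') → Ĵ(R, m)` sends `φ a` to `φ a`. -/
theorem JhatMap_id_phi {m' : Ideal R} (h : m' ≤ m) (hm' : IsNilpotent m') (hm : IsNilpotent m)
    (a : Fin g → m') :
    Pkg.JhatMap (PkgHom.id (D.pkg R)) (m := m') (m' := m) h ((D.pkg R).phi hm' a)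
      = (D.pkg R).phi hm (incl h a) :=
  Pkg.JhatMap_phi (PkgHom.id (D.pkg R)) h hm' hm a

/-- **Theorem 3, sub-ideal form** (the form used at radius `ρ`): if `m' ≤ m`, `m'^N = 0` and `m`
is nilpotent, then in `Ĵ(R, m)`: `φ a · φ a' = φ (F_N(a, a'))` for `a, a' ∈ m'^g`. -/
theorem phi_mul_of_le {m' : Ideal R} (h : m' ≤ m) (hN : m' ^ N = ⊥) (hm : IsNilpotent m)
    (a a' : Fin g → m') :
    (D.pkg R).phi hm (incl h a) * (D.pkg R).phi hm (incl h a')
      = (D.pkg R).phi hm (incl h (D.evF (N := N) a a')) := by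
  rw [← D.JhatMap_id_phi h (nilp hN) hm, ← D.JhatMap_id_phi h (nilp hN) hm,
    ← D.JhatMap_id_phi h (nilp hN) hm, ← map_mul, D.phi_mul hN]

theorem phi_inv_of_le {m' : Ideal R} (h : m' ≤ m) (hN : m' ^ N = ⊥) (hm : IsNilpotent m)
    (a : Fin g → m') :
    ((D.pkg R).phi hm (incl h a))⁻¹ = (D.pkg R).phi hm (incl h (D.evInv (N := N) a)) := by
  rw [← D.JhatMap_id_phi h (nilp hN) hm, ← D.JhatMap_id_phi h (nilp hN) hm, ← map_inv,
    D.phi_inv hN]

/-- Sub-ideal form in coordinates: `coord (φ a · φ a') i = F_N(a, a') i` in `R`. -/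
theorem coord_phi_mul_of_le {m' : Ideal R} (h : m' ≤ m) (hN : m' ^ N = ⊥) (hm : IsNilpotent m)
    (a a' : Fin g → m') (i : Fin g) :
    (((D.pkg R).coord hm ((D.pkg R).phi hm (incl h a) * (D.pkg R).phi hm (incl h a')) i : m) : R)
      = aeval (Sum.elim (fun i => (a i : R)) (fun i => (a' i : R))) (D.F N i) := by
  rw [D.phi_mul_of_le h hN hm, Pkg.coord_phi]
  rfl

/-- Pointwise independence of the truncation order. -/
theorem evF_eq {N' : ℕ} (hN : m ^ N = ⊥) (hN' : m ^ N' = ⊥) (a a' : Fin g → m) :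
    D.evF (N := N) a a' = D.evF (N := N') a a' := by
  apply (D.pkg R).phi_injective (nilp hN)
  rw [← D.phi_mul hN]
  exact D.phi_mul hN' a a'

theorem evInv_eq {N' : ℕ} (hN : m ^ N = ⊥) (hN' : m ^ N' = ⊥) (a : Fin g → m) :
    D.evInv (N := N) a = D.evInv (N := N') a := by
  apply (D.pkg R).phi_injective (nilp hN)
  rw [← D.phi_inv hN]
  exact D.phi_inv hN' a

theorem aeval_mk_X {τ : Type*} (N : ℕ) (p : MvPolynomial τ W) :
    aeval (fun j => (Ideal.Quotient.mk ((aug W τ) ^ N) (X j) : UR W τ N)) p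
      = Ideal.Quotient.mk ((aug W τ) ^ N) p := by
  have h := MvPolynomial.comp_aeval (R := W) (X : τ → MvPolynomial τ W)
    (Ideal.Quotient.mkₐ W ((aug W τ) ^ N))
  have h2 := AlgHom.congr_fun h p
  rw [AlgHom.comp_apply, aeval_X_left, AlgHom.id_apply] at h2
  exact h2.symm

/-- **Compatibility**: `F_(N+1) ≡ F_N` modulo `(T, T')^N`. -/
theorem F_succ_sub_mem (N : ℕ) (i : Fin g) :
    D.F (N + 1) i - D.F N i ∈ (aug W (Fin g ⊕ Fin g)) ^ N := by
  have hN := Um_pow W (Fin g ⊕ Fin g) N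
  have hN1 : (Um W (Fin g ⊕ Fin g) N) ^ (N + 1) = ⊥ :=
    eq_bot_iff.2 (hN ▸ Ideal.pow_le_pow_right (Nat.le_succ N))
  have h := D.evF_eq hN1 hN (fun i => uX W _ N (Sum.inl i)) (fun i => uX W _ N (Sum.inr i))
  have h' := congrArg (fun c : Fin g → Um W (Fin g ⊕ Fin g) N => (c i).1) h
  change aeval _ (D.F (N + 1) i) = aeval _ (D.F N i) at h'
  have e : Sum.elim (fun i => ((uX W (Fin g ⊕ Fin g) N (Sum.inl i) : Um W _ N) : UR W _ N))
      (fun i => ((uX W (Fin g ⊕ Fin g) N (Sum.inr i) : Um W _ N) : UR W _ N))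
      = fun j => (Ideal.Quotient.mk ((aug W (Fin g ⊕ Fin g)) ^ N) (X j) : UR W _ N) := by
    funext j
    cases j <;> rfl
  rw [e, aeval_mk_X, aeval_mk_X] at h'
  exact Ideal.Quotient.eq.1 h'

end Corollaries

end CechData

end Fermat.Agent.T1.CechFormal70
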