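import Fermat.Agent.T1.CechFormal70.PicMap
import Fermat.Agent.T1.CechFormal70.GroupLaw
import Fermat.Agent.T1.Red20.CoordFun

/-!
# The group law of the coordinates: instantiation of `Red20.CoordFun` with `D.F n`, `D.Inv n`

`groupLawAt` : `GroupLawAt D.b c0 O n (polyLaw (D.F n))`, `invLawAt` : `InvLawAt D.b c0 O n (...)`,
hence (`coord_mul_F`, `coord_inv_Inv`) the coordinates of level `n` on `J̃1(O)` satisfy
`coord n (y * y') i = aeval (Sum.elim (coord n y) (coord n y')) (D.F n i)` and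
`coord n y⁻¹ i = aeval (coord n y) (D.Inv n i)`.
(helper70, T1a brick G3 FORMAL.)
-/

set_option autoImplicit false
set_option linter.unusedSectionVars false

open TensorProduct

namespace Fermat.Agent.T1.CechFormal70

open Fermat.Agent.Jac Fermat.Agent.Jac.JGroup85Pic Fermat.Agent.Jac.BaseChange75
open Fermat.Agent.T1.RedIface75 Fermat.Agent.T1.Red11 Fermat.Agent.T1.Red20.CoordFun
open scoped Fermat.Agent.Jac.BaseChange75

universe u

variable {W B0 B1 B01 : Type u} [CommRing W] [CommRing B0] [CommRing B1] [CommRing B01]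
  [Algebra W B0] [Algebra W B1] [Algebra W B01] [Algebra B0 B01] [Algebra B1 B01]
  [IsScalarTower W B0 B01] [IsScalarTower W B1 B01] {g : ℕ}
  (c0 : TwoChart W B0 B1 B01) (D : CechData W B0 B1 B01 g)
  (hD0 : ∀ x, D.ρ0 x = algebraMap B0 B01 x) (hD1 : ∀ x, D.ρ1 x = algebraMap B1 B01 x)
  (O : Type u) [CommRing O] [IsDomain O] [IsDiscreteValuationRing O] [Algebra W O]

theorem mT_pow (n : ℕ) : (mT O n) ^ n = ⊥ := by
  unfold mT
  rw [← Ideal.map_pow, Ideal.map_quotient_self]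

include hD0 hD1 in
/-- **(GL n)** holds for the polynomials `D.F n`. -/
theorem groupLawAt (n : ℕ) : GroupLawAt D.b c0 O n (polyLaw (D.F n)) := by
  intro a a' ha ha'
  let â : Fin g → mT O n := fun i => ⟨a i, ha i⟩
  let â' : Fin g → mT O n := fun i => ⟨a' i, ha' i⟩
  have hN := mT_pow O n
  refine ⟨fun i => (D.evF (N := n) â â' i).2, ?_⟩
  intro u u' hu hu'
  have e : u = ((D.pkg (Trunc O n)).phiUnit (nilp hN) â : (Trunc O n ⊗[W] B01)ˣ) :=
    Units.ext (hu.trans (coe_phiUnit_eq_cechElt D (Trunc O n) (nilp hN) â).symm)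
  have e' : u' = ((D.pkg (Trunc O n)).phiUnit (nilp hN) â' : (Trunc O n ⊗[W] B01)ˣ) :=
    Units.ext (hu'.trans (coe_phiUnit_eq_cechElt D (Trunc O n) (nilp hN) â').symm)
  refine ⟨((D.pkg (Trunc O n)).phiUnit (nilp hN) (D.evF (N := n) â â') : (Trunc O n ⊗[W] B01)ˣ),
    ?_, ?_⟩
  · rw [coe_phiUnit_eq_cechElt]
    rfl
  · rw [e, e']
    exact cechClass_phiUnit_mul c0 D hD0 hD1 (Trunc O n) (nilp hN) â â' _ (D.phi_mul hN â â')

include hD0 hD1 in
/-- Inverse formula in `Ĵ` gives the inverse formula for Čech classes. -/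
theorem cechClass_phiUnit_inv (R : Type u) [CommRing R] [Algebra W R] {m : Ideal R}
    (hm : IsNilpotent m) (a a'' : Fin g → m)
    (h : ((D.pkg R).phi hm a)⁻¹ = (D.pkg R).phi hm a'') :
    (cechClass (c0.baseChange R) ((D.pkg R).phiUnit hm a : (R ⊗[W] B01)ˣ))⁻¹
      = cechClass (c0.baseChange R) ((D.pkg R).phiUnit hm a'' : (R ⊗[W] B01)ˣ) := by
  rw [← jhatToPic_phi c0 D hD0 hD1 R hm, ← jhatToPic_phi c0 D hD0 hD1 R hm, ← map_inv, h]

include hD0 hD1 in
/-- **(INV n)** holds for the polynomials `D.Inv n`. -/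
theorem invLawAt (n : ℕ) :
    InvLawAt D.b c0 O n (fun a i => MvPolynomial.aeval a (D.Inv n i)) := by
  intro a ha
  let â : Fin g → mT O n := fun i => ⟨a i, ha i⟩
  have hN := mT_pow O n
  refine ⟨fun i => (D.evInv (N := n) â i).2, ?_⟩
  intro u hu
  have e : u = ((D.pkg (Trunc O n)).phiUnit (nilp hN) â : (Trunc O n ⊗[W] B01)ˣ) :=
    Units.ext (hu.trans (coe_phiUnit_eq_cechElt D (Trunc O n) (nilp hN) â).symm)
  refine ⟨((D.pkg (Trunc O n)).phiUnit (nilp hN) (D.evInv (N := n) â) : (Trunc O n ⊗[W] B01)ˣ),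
    ?_, ?_⟩
  · rw [coe_phiUnit_eq_cechElt]
    rfl
  · rw [e]
    exact cechClass_phiUnit_inv c0 D hD0 hD1 (Trunc O n) (nilp hN) â _ (D.phi_inv hN â)

variable {c0 O}
variable (hEU : CoordExistsUnique c0 O D.b)

include hD0 hD1 in
/-- **Additivity of the coordinates**: `coord n (y y') = F_n(coord n y, coord n y')`. -/
theorem coord_mul_F (n : ℕ) (y y' : J1 c0 O) (i : Fin g) :
    coord hEU n (y * y') i
      = MvPolynomial.aeval (Sum.elim (coord hEU n y) (coord hEU n y')) (D.F n i) :=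
  coord_mul_poly hEU (groupLawAt c0 D hD0 hD1 O n) y y' i

include hD0 hD1 in
/-- The coordinates of the inverse: `coord n y⁻¹ = Inv_n(coord n y)`. -/
theorem coord_inv_Inv (n : ℕ) (y : J1 c0 O) (i : Fin g) :
    coord hEU n y⁻¹ i = MvPolynomial.aeval (coord hEU n y) (D.Inv n i) :=
  congrFun (coord_inv hEU (invLawAt c0 D hD0 hD1 O n) y) i

end Fermat.Agent.T1.CechFormal70
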