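import Fermat.Agent.T1.CechFormal70.Bijective

/-!
# Čech formal group: the `W`-level datum and its base change to every `W`-algebra `R`

`CechData W B0 B1 B01 g` is the hypothesis structure (G1 MODEL-COH must output it):
`0 → W → B0 × B1 → B01 → H¹ → 0` exact at `W` and `B0 × B1`, `H¹` free on the classes of `b i`,
`B01` flat. `CechData.pkg D R` is the `R`-level package on `R ⊗[W] B_j`, so Theorem 1 reads
`(D.pkg R).phi_bijective hm`. Tor-vanishing: the coboundary module `K = range δ` is a retract of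
`B01`, hence flat, and `LinearMap.lTensor_injective_of_exact_of_flat` applies.
(helper70, T1a brick G3 FORMAL.)
-/

namespace Fermat.Agent.T1.CechFormal70

open scoped BigOperators TensorProduct

/-- `W`-level two-chart Čech datum: `0 → W → B0 × B1 → B01 → H¹ → 0` exact at `W` and `B0 × B1`,
`H¹ = B01/(B0 + B1)` free with basis the classes of `b i`, and `B01` flat over `W`. -/
structure CechData (W : Type*) (B0 B1 B01 : Type*) [CommRing W] [CommRing B0] [CommRing B1]
    [CommRing B01] [Algebra W B0] [Algebra W B1] [Algebra W B01] (g : ℕ) where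
  /-- restriction from chart 0 -/
  ρ0 : B0 →ₐ[W] B01
  /-- restriction from chart 1 -/
  ρ1 : B1 →ₐ[W] B01
  /-- representatives of a basis of `H¹` -/
  b : Fin g → B01
  flat01 : Module.Flat W B01
  inj : ∀ w : W, algebraMap W B0 w = 0 → algebraMap W B1 w = 0 → w = 0
  h0 : ∀ (x0 : B0) (x1 : B1), ρ0 x0 = ρ1 x1 →
    ∃ w : W, algebraMap W B0 w = x0 ∧ algebraMap W B1 w = x1
  span : ∀ y : B01, ∃ (c : Fin g → W) (x0 : B0) (x1 : B1), y = ∑ i, c i • b i + ρ0 x0 + ρ1 x1
  indep : ∀ (c : Fin g → W) (x0 : B0) (x1 : B1), ∑ i, c i • b i + ρ0 x0 + ρ1 x1 = 0 → ∀ i, c i = 0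

namespace CechData

variable {W : Type*} {B0 B1 B01 : Type*} [CommRing W] [CommRing B0] [CommRing B1]
    [CommRing B01] [Algebra W B0] [Algebra W B1] [Algebra W B01] {g : ℕ}
    (D : CechData W B0 B1 B01 g)

/-- The coefficient vector of `y ∈ B01` in `H¹`. -/
noncomputable def coef (y : B01) : Fin g → W := Classical.choose (D.span y)

theorem coef_eq {y : B01} {c : Fin g → W} {x0 : B0} {x1 : B1}
    (h : y = ∑ i, c i • D.b i + D.ρ0 x0 + D.ρ1 x1) : D.coef y = c := by
  obtain ⟨x0', x1', h'⟩ := Classical.choose_spec (D.span y)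
  change y = ∑ i, D.coef y i • D.b i + D.ρ0 x0' + D.ρ1 x1' at h'
  have : ∑ i, (D.coef y i - c i) • D.b i + D.ρ0 (x0' - x0) + D.ρ1 (x1' - x1) = 0 := by
    simp only [sub_smul, Finset.sum_sub_distrib, map_sub]
    linear_combination h - h'
  funext i
  have := D.indep _ _ _ this i
  linear_combination this

/-- The coefficient map as a linear map. -/
noncomputable def coefₗ : B01 →ₗ[W] (Fin g → W) where
  toFun := D.coef
  map_add' y y' := by
    obtain ⟨x0, x1, h⟩ := Classical.choose_spec (D.span y)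
    obtain ⟨x0', x1', h'⟩ := Classical.choose_spec (D.span y')
    change y = ∑ i, D.coef y i • D.b i + D.ρ0 x0 + D.ρ1 x1 at h
    change y' = ∑ i, D.coef y' i • D.b i + D.ρ0 x0' + D.ρ1 x1' at h'
    apply D.coef_eq (x0 := x0 + x0') (x1 := x1 + x1')
    simp only [Pi.add_apply, add_smul, Finset.sum_add_distrib, map_add]
    linear_combination h + h'
  map_smul' w y := by
    obtain ⟨x0, x1, h⟩ := Classical.choose_spec (D.span y)
    change y = ∑ i, D.coef y i • D.b i + D.ρ0 x0 + D.ρ1 x1 at h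
    apply D.coef_eq (x0 := w • x0) (x1 := w • x1)
    simp only [RingHom.id_apply, Pi.smul_apply, smul_eq_mul, mul_smul, map_smul,
      ← Finset.smul_sum, ← smul_add]
    rw [← h]

@[simp] theorem coefₗ_apply (y : B01) : D.coefₗ y = D.coef y := rfl

theorem coef_ρ0 (x0 : B0) : D.coef (D.ρ0 x0) = 0 :=
  D.coef_eq (x0 := x0) (x1 := 0) (by simp)

theorem coef_ρ1 (x1 : B1) : D.coef (D.ρ1 x1) = 0 :=
  D.coef_eq (x0 := 0) (x1 := x1) (by simp)

theorem coef_b (j : Fin g) : D.coef (D.b j) = Pi.single j 1 :=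
  D.coef_eq (x0 := 0) (x1 := 0) (by simp [Pi.single_apply])

/-- `ι : W → B0 × B1`. -/
noncomputable def ι : W →ₗ[W] B0 × B1 := (Algebra.linearMap W B0).prod (Algebra.linearMap W B1)

/-- `δ : B0 × B1 → B01`, `(x0, x1) ↦ ρ0 x0 - ρ1 x1`. -/
noncomputable def δ : B0 × B1 →ₗ[W] B01 := D.ρ0.toLinearMap.coprod (-D.ρ1.toLinearMap)

@[simp] theorem ι_apply (w : W) : (ι (B0 := B0) (B1 := B1)) w = (algebraMap W B0 w, algebraMap W B1 w) := rfl

@[simp] theorem δ_apply (x : B0 × B1) : D.δ x = D.ρ0 x.1 - D.ρ1 x.2 := by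
  simp [δ, sub_eq_add_neg]

include D in
theorem ι_injective : Function.Injective (ι (W := W) (B0 := B0) (B1 := B1)) := by
  rw [← LinearMap.ker_eq_bot, LinearMap.ker_eq_bot']
  intro w hw
  rw [ι_apply, Prod.mk_eq_zero] at hw
  exact D.inj w hw.1 hw.2

theorem exact_ι_δ : Function.Exact (ι (W := W) (B0 := B0) (B1 := B1)) D.δ := by
  intro x
  constructor
  · intro hx
    rw [δ_apply, sub_eq_zero] at hx
    obtain ⟨w, h0, h1⟩ := D.h0 _ _ hx
    exact ⟨w, by rw [ι_apply, h0, h1]⟩
  · rintro ⟨w, rfl⟩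
    simp

/-- The retraction of `B01` onto the coboundaries `K = range δ`. -/
noncomputable def retr : B01 →ₗ[W] LinearMap.range D.δ :=
  LinearMap.codRestrict _ (LinearMap.id - ∑ i, (LinearMap.toSpanSingleton W B01 (D.b i)).comp
      ((LinearMap.proj i).comp D.coefₗ)) (by
    intro y
    obtain ⟨x0, x1, h⟩ := Classical.choose_spec (D.span y)
    change y = ∑ i, D.coef y i • D.b i + D.ρ0 x0 + D.ρ1 x1 at h
    refine ⟨(x0, -x1), ?_⟩
    simp only [δ_apply, map_neg, LinearMap.sub_apply, LinearMap.id_apply, LinearMap.sum_apply,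
      LinearMap.comp_apply, LinearMap.proj_apply, coefₗ_apply, LinearMap.toSpanSingleton_apply]
    linear_combination (-1 : B01) * h)

theorem retr_apply (y : B01) : ((D.retr y : LinearMap.range D.δ) : B01)
    = y - ∑ i, D.coef y i • D.b i := by
  simp [retr]

theorem retr_comp_subtype : D.retr.comp (LinearMap.range D.δ).subtype = LinearMap.id := by
  ext ⟨y, x, rfl⟩
  simp only [LinearMap.comp_apply, Submodule.subtype_apply, LinearMap.id_apply, retr_apply]
  have : D.coef (D.δ x) = 0 :=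
    D.coef_eq (x0 := x.1) (x1 := -x.2) (by simp [sub_eq_add_neg])
  rw [this]
  simp

theorem flat_range : Module.Flat W (LinearMap.range D.δ) :=
  haveI := D.flat01
  Module.Flat.of_retract (LinearMap.range D.δ).subtype D.retr D.retr_comp_subtype

section Tensor

variable (N : Type*) [AddCommGroup N] [Module W N]

theorem exact_ι_rangeRestrict :
    Function.Exact (ι (W := W) (B0 := B0) (B1 := B1)) D.δ.rangeRestrict := by
  intro x
  rw [← D.exact_ι_δ x]
  constructor
  · intro h; simpa using congrArg Subtype.val h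
  · intro h; exact Subtype.ext (by simpa using h)

include D in
theorem lTensor_ι_injective : Function.Injective ((ι (W := W) (B0 := B0) (B1 := B1)).lTensor N) :=
  haveI := D.flat_range
  LinearMap.lTensor_injective_of_exact_of_flat D.δ.rangeRestrict
    D.δ.surjective_rangeRestrict ι D.ι_injective D.exact_ι_rangeRestrict N

theorem lTensor_exact : Function.Exact ((ι (W := W) (B0 := B0) (B1 := B1)).lTensor N)
    (D.δ.lTensor N) := by
  have h1 : Function.Exact ((ι (W := W) (B0 := B0) (B1 := B1)).lTensor N)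
      (D.δ.rangeRestrict.lTensor N) :=
    _root_.lTensor_exact N D.exact_ι_rangeRestrict D.δ.surjective_rangeRestrict
  have h2 : Function.Injective ((LinearMap.range D.δ).subtype.lTensor N) := by
    have : (D.retr.lTensor N).comp ((LinearMap.range D.δ).subtype.lTensor N) = LinearMap.id := by
      rw [← LinearMap.lTensor_comp, D.retr_comp_subtype, LinearMap.lTensor_id]
    exact Function.LeftInverse.injective (g := D.retr.lTensor N) fun x => by
      simpa using LinearMap.congr_fun this x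
  have h3 : D.δ.lTensor N = ((LinearMap.range D.δ).subtype.lTensor N).comp
      (D.δ.rangeRestrict.lTensor N) := by
    rw [← LinearMap.lTensor_comp]
    congr 1
  intro x
  rw [← h1 x, h3, LinearMap.comp_apply, ← map_zero ((LinearMap.range D.δ).subtype.lTensor N),
    h2.eq_iff]

theorem rid_tmul_one_fst (y : N ⊗[W] W) : TensorProduct.rid W N y ⊗ₜ[W] (1 : B0)
    = ((LinearMap.fst W B0 B1).comp ι).lTensor N y := by
  induction y using TensorProduct.induction_on with
  | zero => simp
  | tmul n w =>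
    simp only [TensorProduct.rid_tmul, LinearMap.lTensor_tmul, LinearMap.comp_apply, ι_apply,
      LinearMap.fst_apply]
    rw [Algebra.algebraMap_eq_smul_one, TensorProduct.tmul_smul, TensorProduct.smul_tmul']
  | add a b ha hb => rw [map_add, TensorProduct.add_tmul, ha, hb, map_add]

theorem rid_tmul_one_snd (y : N ⊗[W] W) : TensorProduct.rid W N y ⊗ₜ[W] (1 : B1)
    = ((LinearMap.snd W B0 B1).comp ι).lTensor N y := by
  induction y using TensorProduct.induction_on with
  | zero => simp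
  | tmul n w =>
    simp only [TensorProduct.rid_tmul, LinearMap.lTensor_tmul, LinearMap.comp_apply, ι_apply,
      LinearMap.snd_apply]
    rw [Algebra.algebraMap_eq_smul_one, TensorProduct.tmul_smul, TensorProduct.smul_tmul']
  | add a b ha hb => rw [map_add, TensorProduct.add_tmul, ha, hb, map_add]

include D in
/-- Tensored exactness at `N`: `N → N ⊗ B0 × N ⊗ B1` is injective. -/
theorem tmul_one_eq_zero {n : N} (h0 : n ⊗ₜ[W] (1 : B0) = 0) (h1 : n ⊗ₜ[W] (1 : B1) = 0) :
    n = 0 := by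
  have h : (ι (W := W) (B0 := B0) (B1 := B1)).lTensor N (n ⊗ₜ[W] (1 : W)) = 0 := by
    rw [LinearMap.lTensor_tmul, ι_apply, map_one, map_one]
    have : ((1 : B0), (1 : B1)) = LinearMap.inl W B0 B1 1 + LinearMap.inr W B0 B1 1 := by simp
    rw [this, TensorProduct.tmul_add]
    have e0 := congrArg ((LinearMap.inl W B0 B1).lTensor N) h0
    have e1 := congrArg ((LinearMap.inr W B0 B1).lTensor N) h1
    rw [LinearMap.lTensor_tmul, map_zero] at e0 e1
    rw [e0, e1, add_zero]
  have h' := D.lTensor_ι_injective N (h.trans (map_zero _).symm)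
  have := congrArg (TensorProduct.rid W N) h'
  simpa using this

/-- Tensored exactness at `N ⊗ B0 × N ⊗ B1`. -/
theorem exists_tmul_one_eq {z0 : N ⊗[W] B0} {z1 : N ⊗[W] B1}
    (h : D.ρ0.toLinearMap.lTensor N z0 = D.ρ1.toLinearMap.lTensor N z1) :
    ∃ n : N, n ⊗ₜ[W] (1 : B0) = z0 ∧ n ⊗ₜ[W] (1 : B1) = z1 := by
  have hz : D.δ.lTensor N ((LinearMap.inl W B0 B1).lTensor N z0
      + (LinearMap.inr W B0 B1).lTensor N z1) = 0 := by
    rw [map_add, ← LinearMap.comp_apply, ← LinearMap.comp_apply, ← LinearMap.lTensor_comp,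
      ← LinearMap.lTensor_comp]
    have e0 : D.δ.comp (LinearMap.inl W B0 B1) = D.ρ0.toLinearMap := by
      ext x; simp
    have e1 : D.δ.comp (LinearMap.inr W B0 B1) = -D.ρ1.toLinearMap := by
      ext x; simp
    rw [e0, e1, LinearMap.lTensor_neg, LinearMap.neg_apply, h, add_neg_cancel]
  obtain ⟨y, hy⟩ := (D.lTensor_exact N _).1 hz
  refine ⟨TensorProduct.rid W N y, ?_, ?_⟩
  · have := congrArg ((LinearMap.fst W B0 B1).lTensor N) hy
    rw [map_add, ← LinearMap.comp_apply, ← LinearMap.comp_apply, ← LinearMap.comp_apply,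
      ← LinearMap.lTensor_comp, ← LinearMap.lTensor_comp, ← LinearMap.lTensor_comp,
      LinearMap.fst_comp_inl, LinearMap.fst_comp_inr, LinearMap.lTensor_id, LinearMap.lTensor_zero,
      LinearMap.id_apply, LinearMap.zero_apply, add_zero] at this
    rw [← this, rid_tmul_one_fst (B1 := B1)]
  · have := congrArg ((LinearMap.snd W B0 B1).lTensor N) hy
    rw [map_add, ← LinearMap.comp_apply, ← LinearMap.comp_apply, ← LinearMap.comp_apply,
      ← LinearMap.lTensor_comp, ← LinearMap.lTensor_comp, ← LinearMap.lTensor_comp,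
      LinearMap.snd_comp_inl, LinearMap.snd_comp_inr, LinearMap.lTensor_id, LinearMap.lTensor_zero,
      LinearMap.id_apply, LinearMap.zero_apply, zero_add] at this
    rw [← this, rid_tmul_one_snd (B0 := B0)]

end Tensor

section BaseChange

variable (R : Type*) [CommRing R] [Algebra W R]

/-- Reduction modulo `I` on `R ⊗ B`. -/
noncomputable def redI (I : Ideal R) (B : Type*) [CommRing B] [Algebra W B] :
    R ⊗[W] B →ₐ[W] (R ⧸ I) ⊗[W] B :=
  Algebra.TensorProduct.map (Ideal.Quotient.mkₐ W I) (AlgHom.id W B)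

@[simp] theorem redI_tmul (I : Ideal R) (B : Type*) [CommRing B] [Algebra W B] (r : R) (y : B) :
    redI R I B (r ⊗ₜ[W] y) = Ideal.Quotient.mk I r ⊗ₜ[W] y := rfl

theorem mem_eI_iff (I : Ideal R) (B : Type*) [CommRing B] [Algebra W B] (x : R ⊗[W] B) :
    x ∈ eI I (R ⊗[W] B) ↔ redI R I B x = 0 := by
  have h := Algebra.TensorProduct.rTensor_ker (R := W) (S := W) (C := B)
    (Ideal.Quotient.mkₐ W I) (Ideal.Quotient.mkₐ_surjective W I)
  have hk : RingHom.ker (Ideal.Quotient.mkₐ W I) = I := by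
    ext r
    rw [RingHom.mem_ker, Ideal.Quotient.mkₐ_eq_mk, Ideal.Quotient.eq_zero_iff_mem]
  rw [hk] at h
  have h2 : eI I (R ⊗[W] B)
      = I.map (Algebra.TensorProduct.includeLeft : R →ₐ[W] R ⊗[W] B) := by
    unfold eI
    apply le_antisymm
    · rw [Ideal.map_le_iff_le_comap]
      intro r hr
      rw [Ideal.mem_comap]
      have : algebraMap R (R ⊗[W] B) r
          = (Algebra.TensorProduct.includeLeft : R →ₐ[W] R ⊗[W] B) r := by
        simp [Algebra.TensorProduct.algebraMap_apply]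
      rw [this]
      exact Ideal.mem_map_of_mem _ hr
    · rw [Ideal.map_le_iff_le_comap]
      intro r hr
      rw [Ideal.mem_comap]
      have : (Algebra.TensorProduct.includeLeft : R →ₐ[W] R ⊗[W] B) r
          = algebraMap R (R ⊗[W] B) r := by
        simp [Algebra.TensorProduct.algebraMap_apply]
      rw [this]
      exact Ideal.mem_map_of_mem _ hr
  rw [h2, ← h, RingHom.mem_ker]
  rfl

theorem algebraMap_tensor_eq (B : Type*) [CommRing B] [Algebra W B] (r : R) :
    algebraMap R (R ⊗[W] B) r = r ⊗ₜ[W] (1 : B) := by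
  simp [Algebra.TensorProduct.algebraMap_apply]

/-- `r0` of the base-changed package. -/
noncomputable def r0R : R ⊗[W] B0 →ₐ[R] R ⊗[W] B01 :=
  Algebra.TensorProduct.map (AlgHom.id R R) D.ρ0

/-- `r1` of the base-changed package. -/
noncomputable def r1R : R ⊗[W] B1 →ₐ[R] R ⊗[W] B01 :=
  Algebra.TensorProduct.map (AlgHom.id R R) D.ρ1

@[simp] theorem r0R_tmul (r : R) (x : B0) : D.r0R R (r ⊗ₜ[W] x) = r ⊗ₜ[W] D.ρ0 x := rfl

@[simp] theorem r1R_tmul (r : R) (x : B1) : D.r1R R (r ⊗ₜ[W] x) = r ⊗ₜ[W] D.ρ1 x := rfl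

theorem redI_r0R (I : Ideal R) (x : R ⊗[W] B0) :
    redI R I B01 (D.r0R R x) = D.ρ0.toLinearMap.lTensor (R ⧸ I) (redI R I B0 x) := by
  induction x using TensorProduct.induction_on with
  | zero => simp
  | tmul r x => rfl
  | add a b ha hb => simp only [map_add, ha, hb]

theorem redI_r1R (I : Ideal R) (x : R ⊗[W] B1) :
    redI R I B01 (D.r1R R x) = D.ρ1.toLinearMap.lTensor (R ⧸ I) (redI R I B1 x) := by
  induction x using TensorProduct.induction_on with
  | zero => simp
  | tmul r x => rfl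
  | add a b ha hb => simp only [map_add, ha, hb]

include D in
theorem pkg_inj (I : Ideal R) (r : R) (h0 : algebraMap R (R ⊗[W] B0) r ∈ eI I (R ⊗[W] B0))
    (h1 : algebraMap R (R ⊗[W] B1) r ∈ eI I (R ⊗[W] B1)) : r ∈ I := by
  rw [mem_eI_iff, algebraMap_tensor_eq, redI_tmul] at h0 h1
  rw [← Ideal.Quotient.eq_zero_iff_mem]
  exact D.tmul_one_eq_zero (R ⧸ I) h0 h1

theorem pkg_h0 (I : Ideal R) (x0 : R ⊗[W] B0) (x1 : R ⊗[W] B1)
    (h : D.r0R R x0 - D.r1R R x1 ∈ eI I (R ⊗[W] B01)) :
    ∃ r : R, x0 - algebraMap R (R ⊗[W] B0) r ∈ eI I (R ⊗[W] B0) ∧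
      x1 - algebraMap R (R ⊗[W] B1) r ∈ eI I (R ⊗[W] B1) := by
  rw [mem_eI_iff, map_sub, sub_eq_zero, redI_r0R, redI_r1R] at h
  obtain ⟨n, hn0, hn1⟩ := D.exists_tmul_one_eq (R ⧸ I) h
  obtain ⟨r, rfl⟩ := Ideal.Quotient.mk_surjective n
  refine ⟨r, ?_, ?_⟩
  · rw [mem_eI_iff, map_sub, algebraMap_tensor_eq, redI_tmul, hn0, sub_self]
  · rw [mem_eI_iff, map_sub, algebraMap_tensor_eq, redI_tmul, hn1, sub_self]

theorem pkg_span (y : R ⊗[W] B01) : ∃ (c : Fin g → R) (x0 : R ⊗[W] B0) (x1 : R ⊗[W] B1),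
    y = ∑ i, c i • ((1 : R) ⊗ₜ[W] D.b i) + D.r0R R x0 + D.r1R R x1 := by
  induction y using TensorProduct.induction_on with
  | zero => exact ⟨0, 0, 0, by simp⟩
  | tmul r y =>
    obtain ⟨c, x0, x1, rfl⟩ := D.span y
    refine ⟨fun i => c i • r, r ⊗ₜ x0, r ⊗ₜ x1, ?_⟩
    simp only [TensorProduct.tmul_add, TensorProduct.tmul_sum, r0R_tmul, r1R_tmul,
      TensorProduct.tmul_smul, TensorProduct.smul_tmul', smul_eq_mul, mul_one]
  | add a b ha hb =>
    obtain ⟨c, x0, x1, rfl⟩ := ha
    obtain ⟨c', x0', x1', rfl⟩ := hb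
    refine ⟨fun i => c i + c' i, x0 + x0', x1 + x1', ?_⟩
    simp only [add_smul, Finset.sum_add_distrib, map_add]
    abel

/-- The `i`-th coefficient functional on `R ⊗ B01`. -/
noncomputable def coefR (i : Fin g) : R ⊗[W] B01 →ₗ[W] R :=
  (TensorProduct.rid W R).toLinearMap.comp
    (((LinearMap.proj i).comp D.coefₗ).lTensor R)

@[simp] theorem coefR_tmul (i : Fin g) (r : R) (y : B01) :
    D.coefR R i (r ⊗ₜ[W] y) = D.coef y i • r := by
  simp [coefR]

theorem coefR_r0R (i : Fin g) (x : R ⊗[W] B0) : D.coefR R i (D.r0R R x) = 0 := by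
  induction x using TensorProduct.induction_on with
  | zero => simp
  | tmul r x => simp [D.coef_ρ0]
  | add a b ha hb => simp only [map_add, ha, hb, add_zero]

theorem coefR_r1R (i : Fin g) (x : R ⊗[W] B1) : D.coefR R i (D.r1R R x) = 0 := by
  induction x using TensorProduct.induction_on with
  | zero => simp
  | tmul r x => simp [D.coef_ρ1]
  | add a b ha hb => simp only [map_add, ha, hb, add_zero]

theorem pkg_indep (c : Fin g → R) (x0 : R ⊗[W] B0) (x1 : R ⊗[W] B1)
    (h : ∑ i, c i • ((1 : R) ⊗ₜ[W] D.b i) + D.r0R R x0 + D.r1R R x1 = 0) : ∀ i, c i = 0 := by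
  intro i
  have := congrArg (D.coefR R i) h
  simp only [map_add, map_sum, coefR_r0R, coefR_r1R, add_zero, map_zero,
    TensorProduct.smul_tmul', smul_eq_mul, mul_one, coefR_tmul, D.coef_b] at this
  simpa [Pi.single_apply] using this

/-- **Base change**: the `W`-level datum gives an `R`-level package for every `W`-algebra `R`. -/
noncomputable def pkg : Pkg R (R ⊗[W] B0) (R ⊗[W] B1) (R ⊗[W] B01) g where
  r0 := D.r0R R
  r1 := D.r1R R
  β i := (1 : R) ⊗ₜ[W] D.b i
  inj := D.pkg_inj R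
  h0 := D.pkg_h0 R
  span := D.pkg_span R
  indep := D.pkg_indep R

@[simp] theorem pkg_r0 : (D.pkg R).r0 = D.r0R R := rfl

@[simp] theorem pkg_r1 : (D.pkg R).r1 = D.r1R R := rfl

@[simp] theorem pkg_β (i : Fin g) : (D.pkg R).β i = (1 : R) ⊗ₜ[W] D.b i := rfl

end BaseChange

end CechData

end Fermat.Agent.T1.CechFormal70
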