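import Fermat.Agent.T1.CechFormal70.Units
import Fermat.Agent.T1.Red11.CechLine

/-!
# Čech formal group ↔ Čech classes in `Pic X_R` (bridge to `RedIface75` / `Red11`)

For a two-chart ring `c0 : TwoChart W B0 B1 B01` whose Čech datum `D : CechData W B0 B1 B01 g` has
`D.ρ_j = algebraMap B_j B01`: if `R → R'` is a surjective map of `W`-algebras with nilpotent kernel
`m` and the Čech class of a unit `u` of `R ⊗[W] B01` dies in `Pic X_{R'}`, then
`cechClass u = cechClass (∏ (1 + aᵢ ⊗ bᵢ))` for a UNIQUE `a ∈ m^g`.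
(helper70, T1a brick G3 FORMAL.)
-/

set_option autoImplicit false
set_option linter.unusedSectionVars false

open TensorProduct

namespace Fermat.Agent.T1.CechFormal70

open Fermat.Agent.Jac Fermat.Agent.Jac.JGroup85Pic Fermat.Agent.Jac.BaseChange75
open Fermat.Agent.T1.RedIface75 Fermat.Agent.T1.Red11
open scoped Fermat.Agent.Jac.BaseChange75

universe u

/-- A ring homomorphism whose kernel is contained in a nilpotent ideal reflects units, as soon as
it is surjective. -/
theorem isUnit_of_map_of_nilpotent_ker {S S' : Type*} [CommRing S] [CommRing S'] (f : S →+* S')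
    (hf : Function.Surjective f) {J : Ideal S} (hJ : IsNilpotent J) (hker : RingHom.ker f ≤ J)
    {x : S} (hx : IsUnit (f x)) : IsUnit x := by
  obtain ⟨y, hy⟩ := hf (↑hx.unit⁻¹ : S')
  have h1 : f (x * y - 1) = 0 := by
    rw [map_sub, map_mul, map_one, hy, IsUnit.mul_val_inv, sub_self]
  have h2 : IsNilpotent (x * y - 1) := isNilpotent_of_mem hJ (hker h1)
  have h3 : IsUnit (x * y) := by
    have := h2.isUnit_one_add
    simpa using this
  exact isUnit_of_mul_isUnit_left h3

namespace CechData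

variable {W : Type*} {B0 B1 B01 : Type*} [CommRing W] [CommRing B0] [CommRing B1]
    [CommRing B01] [Algebra W B0] [Algebra W B1] [Algebra W B01] {g : ℕ}

/-- Kernel of `f ⊗ id` for a surjective `W`-algebra map `f : R → R'`. -/
theorem mem_eI_ker_iff {R R' : Type*} [CommRing R] [CommRing R'] [Algebra W R] [Algebra W R']
    (f : R →ₐ[W] R') (hf : Function.Surjective f) (B : Type*) [CommRing B] [Algebra W B]
    (x : R ⊗[W] B) :
    x ∈ eI (RingHom.ker f) (R ⊗[W] B) ↔ Algebra.TensorProduct.map f (AlgHom.id W B) x = 0 := by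
  have h := Algebra.TensorProduct.rTensor_ker (R := W) (S := W) (C := B) f hf
  have h2 : eI (RingHom.ker f) (R ⊗[W] B)
      = (RingHom.ker f).map (Algebra.TensorProduct.includeLeft : R →ₐ[W] R ⊗[W] B) := by
    unfold eI
    apply le_antisymm
    · rw [Ideal.map_le_iff_le_comap]
      intro r hr
      rw [Ideal.mem_comap]
      have : algebraMap R (R ⊗[W] B) r
          = (Algebra.TensorProduct.includeLeft : R →ₐ[W] R ⊗[W] B) r := by
        simp [Algebra.TensorProduct.algebraMap_apply]
      rw [this]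
      exact Ideal.mem_map_of_mem _ hr
    · rw [Ideal.map_le_iff_le_comap]
      intro r hr
      rw [Ideal.mem_comap]
      have : (Algebra.TensorProduct.includeLeft : R →ₐ[W] R ⊗[W] B) r
          = algebraMap R (R ⊗[W] B) r := by
        simp [Algebra.TensorProduct.algebraMap_apply]
      rw [this]
      exact Ideal.mem_map_of_mem _ hr
  rw [h2, ← h, RingHom.mem_ker]

end CechData

section Bridge

variable {W B0 B1 B01 : Type u} [CommRing W] [CommRing B0] [CommRing B1] [CommRing B01]
  [Algebra W B0] [Algebra W B1] [Algebra W B01] [Algebra B0 B01] [Algebra B1 B01]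
  [IsScalarTower W B0 B01] [IsScalarTower W B1 B01] {g : ℕ}
  (c0 : TwoChart W B0 B1 B01) (D : CechData W B0 B1 B01 g)
  (hD0 : ∀ x, D.ρ0 x = algebraMap B0 B01 x) (hD1 : ∀ x, D.ρ1 x = algebraMap B1 B01 x)
  (R : Type u) [CommRing R] [Algebra W R]

include hD0 in
theorem pkg_r0_eq_algebraMap (x : R ⊗[W] B0) :
    (D.pkg R).r0 x = algebraMap (R ⊗[W] B0) (R ⊗[W] B01) x := by
  induction x using TensorProduct.induction_on with
  | zero => simp
  | tmul r b => simp [hD0]
  | add a b ha hb => rw [map_add, map_add, ha, hb]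

include hD1 in
theorem pkg_r1_eq_algebraMap (x : R ⊗[W] B1) :
    (D.pkg R).r1 x = algebraMap (R ⊗[W] B1) (R ⊗[W] B01) x := by
  induction x using TensorProduct.induction_on with
  | zero => simp
  | tmul r b => simp [hD1]
  | add a b ha hb => rw [map_add, map_add, ha, hb]

/-- The Čech unit of `RedIface75` is the unit of `φ`. -/
theorem coe_phiUnit_eq_cechElt {m : Ideal R} (hm : IsNilpotent m) (a : Fin g → m) :
    ((((D.pkg R).phiUnit hm a : unitsOne (eI m (R ⊗[W] B01))) : (R ⊗[W] B01)ˣ) : R ⊗[W] B01)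
      = cechElt D.b (fun i => (a i : R)) := by
  rw [Pkg.coe_phiUnit]
  unfold Pkg.phiT cechElt
  refine Finset.prod_congr rfl fun i _ => ?_
  rw [CechData.pkg_β, TensorProduct.smul_tmul', smul_eq_mul, mul_one]

variable (R' : Type u) [CommRing R'] [Algebra W R'] [Algebra R R'] [IsScalarTower W R R']

theorem algebraMap_left_eq_map (B : Type u) [CommRing B] [Algebra W B] (x : R ⊗[W] B) :
    algebraMap (R ⊗[W] B) (R' ⊗[W] B) x
      = Algebra.TensorProduct.map (IsScalarTower.toAlgHom W R R') (AlgHom.id W B) x := by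
  induction x using TensorProduct.induction_on with
  | zero => simp
  | tmul r b => simp
  | add a b ha hb => rw [map_add, map_add, ha, hb]

variable (hsurj : Function.Surjective (algebraMap R R'))
  (hnil : IsNilpotent (RingHom.ker (algebraMap R R')))

include hsurj hnil in
/-- Units of `R' ⊗ B` lift to units of `R ⊗ B`. -/
theorem exists_unit_lift (B : Type u) [CommRing B] [Algebra W B] (v : (R' ⊗[W] B)ˣ) :
    ∃ w : (R ⊗[W] B)ˣ, algebraMap (R ⊗[W] B) (R' ⊗[W] B) (w : R ⊗[W] B) = v := by
  have hs : Function.Surjective (algebraMap (R ⊗[W] B) (R' ⊗[W] B)) := by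
    have h1 : Function.Surjective
        (Algebra.TensorProduct.map (IsScalarTower.toAlgHom W R R') (AlgHom.id W B)) :=
      Algebra.TensorProduct.map_surjective _ _ hsurj Function.surjective_id
    intro y
    obtain ⟨x, hx⟩ := h1 y
    exact ⟨x, by rw [algebraMap_left_eq_map, hx]⟩
  obtain ⟨x, hx⟩ := hs (v : R' ⊗[W] B)
  have hunit : IsUnit x := by
    refine isUnit_of_map_of_nilpotent_ker (algebraMap (R ⊗[W] B) (R' ⊗[W] B)) hs
      (isNilpotent_map (algebraMap R (R ⊗[W] B)) hnil) ?_ (by rw [hx]; exact v.isUnit)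
    intro y hy
    rw [RingHom.mem_ker, algebraMap_left_eq_map] at hy
    exact (CechData.mem_eI_ker_iff (IsScalarTower.toAlgHom W R R') hsurj B y).2 hy
  exact ⟨hunit.unit, hx⟩

include hD0 hD1 hsurj hnil in
/-- **The bridge**: if the Čech class of `u` dies in `Pic X_{R'}` (`R → R'` surjective with
nilpotent kernel `m`), then `cechClass u = cechClass (∏ (1 + aᵢ ⊗ bᵢ))` for a unique `a ∈ m^g`. -/
theorem existsUnique_cechClass_eq (u : (R ⊗[W] B01)ˣ)
    (hu : PicX.map c0 R R' (cechClass (c0.baseChange R) u) = 1) :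
    ∃! a : Fin g → RingHom.ker (algebraMap R R'),
      cechClass (c0.baseChange R) u
        = cechClass (c0.baseChange R) ((D.pkg R).phiUnit hnil a : (R ⊗[W] B01)ˣ) := by
  rw [PicX.map_cechClass, cechClass_eq_one_iff] at hu
  obtain ⟨a0, a1, h01⟩ := hu
  obtain ⟨w0, hw0⟩ := exists_unit_lift R R' hsurj hnil B0 a0
  obtain ⟨w1, hw1⟩ := exists_unit_lift R R' hsurj hnil B1 a1
  have hmem : (u : R ⊗[W] B01) - (D.pkg R).r0 (w0 : R ⊗[W] B0) * (D.pkg R).r1 (w1 : R ⊗[W] B1)
      ∈ eI (RingHom.ker (algebraMap R R')) (R ⊗[W] B01) := by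
    refine (CechData.mem_eI_ker_iff (IsScalarTower.toAlgHom W R R') hsurj B01 _).2 ?_
    rw [← algebraMap_left_eq_map, map_sub, map_mul, pkg_r0_eq_algebraMap D hD0,
      pkg_r1_eq_algebraMap D hD1, sub_eq_zero]
    have s0 := RingHom.congr_fun (square_comm W R R' B0 B01) (w0 : R ⊗[W] B0)
    have s1 := RingHom.congr_fun (square_comm W R R' B1 B01) (w1 : R ⊗[W] B1)
    simp only [RingHom.comp_apply] at s0 s1
    rw [← s0, ← s1, hw0, hw1]
    exact h01
  have key := (D.pkg R).existsUnique_coord_of_units hnil u w0 w1 hmem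
  have hiff : ∀ a : Fin g → RingHom.ker (algebraMap R R'),
      (∃ (v0 : (R ⊗[W] B0)ˣ) (v1 : (R ⊗[W] B1)ˣ),
        u = ((D.pkg R).phiUnit hnil a : (R ⊗[W] B01)ˣ)
          * Units.map ((D.pkg R).r0 : R ⊗[W] B0 →* R ⊗[W] B01) v0
          * Units.map ((D.pkg R).r1 : R ⊗[W] B1 →* R ⊗[W] B01) v1) ↔
      cechClass (c0.baseChange R) u
        = cechClass (c0.baseChange R) ((D.pkg R).phiUnit hnil a : (R ⊗[W] B01)ˣ) := by
    intro a
    rw [eq_comm, cechClass_eq_cechClass_iff]
    constructor
    · rintro ⟨v0, v1, h⟩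
      refine ⟨v0, v1, ?_⟩
      rw [h]
      apply Units.ext
      simp only [Units.val_mul, Units.coe_map, MonoidHom.coe_coe]
      rw [pkg_r0_eq_algebraMap D hD0, pkg_r1_eq_algebraMap D hD1]
    · rintro ⟨v0, v1, h⟩
      refine ⟨v0, v1, ?_⟩
      rw [h]
      apply Units.ext
      simp only [Units.val_mul, Units.coe_map, MonoidHom.coe_coe]
      rw [pkg_r0_eq_algebraMap D hD0, pkg_r1_eq_algebraMap D hD1]
  obtain ⟨a, ha, huniq⟩ := key
  exact ⟨a, (hiff a).1 ha, fun a' ha' => huniq a' ((hiff a').2 ha')⟩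

end Bridge

end Fermat.Agent.T1.CechFormal70
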