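import Mathlib

namespace Fermat.Agent.T1.CechFormal70

open scoped BigOperators

/-- Units of `T` congruent to `1` modulo the ideal `J`. -/
def unitsOne {T : Type*} [CommRing T] (J : Ideal T) : Subgroup Tˣ where
  carrier := {u | (u : T) - 1 ∈ J}
  one_mem' := by simp
  mul_mem' := fun {a b} ha hb => by
    have : ((a * b : Tˣ) : T) - 1 = (a : T) * ((b : T) - 1) + ((a : T) - 1) := by
      push_cast; ring
    simp only [Set.mem_ofPred_eq] at ha hb ⊢
    rw [this]
    exact J.add_mem (J.mul_mem_left _ hb) ha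
  inv_mem' := fun {a} ha => by
    have : ((a⁻¹ : Tˣ) : T) - 1 = -(((a⁻¹ : Tˣ) : T) * ((a : T) - 1)) := by
      rw [mul_sub, Units.inv_mul]; ring
    simp only [Set.mem_ofPred_eq] at ha ⊢
    rw [this]
    exact J.neg_mem (J.mul_mem_left _ ha)

theorem mem_unitsOne {T : Type*} [CommRing T] {J : Ideal T} {u : Tˣ} :
    u ∈ unitsOne J ↔ (u : T) - 1 ∈ J := Iff.rfl

/-- Elements of a nilpotent ideal are nilpotent. -/
theorem isNilpotent_of_mem {T : Type*} [CommRing T] {J : Ideal T} (hJ : IsNilpotent J)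
    {x : T} (hx : x ∈ J) : IsNilpotent x := by
  obtain ⟨n, hn⟩ := hJ
  refine ⟨n, ?_⟩
  have := Ideal.pow_mem_pow hx n
  rw [hn] at this
  simpa using this

/-- The extension of a nilpotent ideal is nilpotent. -/
theorem isNilpotent_map {R T : Type*} [CommRing R] [CommRing T] (f : R →+* T) {m : Ideal R}
    (hm : IsNilpotent m) : IsNilpotent (m.map f) := by
  obtain ⟨n, hn⟩ := hm
  refine ⟨n, ?_⟩
  rw [← Ideal.map_pow, hn]
  simp

/-- `1 + x` as a unit congruent to `1`, for `x` in a nilpotent ideal. -/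
noncomputable def oneAddUnit {T : Type*} [CommRing T] {J : Ideal T} (hJ : IsNilpotent J)
    (x : T) (hx : x ∈ J) : unitsOne J :=
  ⟨(isNilpotent_of_mem hJ hx).isUnit_one_add.unit, by
    rw [mem_unitsOne, IsUnit.unit_spec]; simpa using hx⟩

@[simp] theorem coe_oneAddUnit {T : Type*} [CommRing T] {J : Ideal T} (hJ : IsNilpotent J)
    (x : T) (hx : x ∈ J) : (((oneAddUnit hJ x hx : unitsOne J) : Tˣ) : T) = 1 + x := rfl

/-- Functoriality of `unitsOne`. -/
def unitsOneMap {T T' : Type*} [CommRing T] [CommRing T'] (f : T →+* T') {J : Ideal T}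
    {J' : Ideal T'} (h : J ≤ J'.comap f) : unitsOne J →* unitsOne J' where
  toFun u := ⟨Units.map f.toMonoidHom u.1, by
    have h1 : (u.1 : T) - 1 ∈ J := u.2
    have := h h1
    rw [Ideal.mem_comap, map_sub, map_one] at this
    exact this⟩
  map_one' := by ext; simp
  map_mul' a b := by ext; simp

@[simp] theorem coe_unitsOneMap {T T' : Type*} [CommRing T] [CommRing T'] (f : T →+* T')
    {J : Ideal T} {J' : Ideal T'} (h : J ≤ J'.comap f) (u : unitsOne J) :
    (((unitsOneMap f h u : unitsOne J') : T'ˣ) : T') = f ((u : Tˣ) : T) := rfl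

section Pkg

variable (R : Type*) (T0 T1 T01 : Type*) [CommRing R] [CommRing T0] [CommRing T1] [CommRing T01]
  [Algebra R T0] [Algebra R T1] [Algebra R T01] (g : ℕ)

/-- `I·T`, the extension of the ideal `I ⊆ R` to the `R`-algebra `T`. -/
abbrev eI {R : Type*} [CommRing R] (I : Ideal R) (T : Type*) [CommRing T] [Algebra R T] : Ideal T :=
  I.map (algebraMap R T)

/-- An `R`-level two-chart Čech package: `R → T0 × T1 → T01 → R^g → 0` is exact, universally with
respect to all quotients `R/I`. -/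
structure Pkg where
  /-- restriction from chart 0 -/
  r0 : T0 →ₐ[R] T01
  /-- restriction from chart 1 -/
  r1 : T1 →ₐ[R] T01
  /-- representatives of a basis of `H¹` -/
  β : Fin g → T01
  /-- `R/I → T0/I × T1/I` is injective. -/
  inj : ∀ (I : Ideal R) (r : R), algebraMap R T0 r ∈ eI I T0 → algebraMap R T1 r ∈ eI I T1 → r ∈ I
  /-- `H⁰(R/I) = R/I`. -/
  h0 : ∀ (I : Ideal R) (x0 : T0) (x1 : T1), r0 x0 - r1 x1 ∈ eI I T01 →
    ∃ r : R, x0 - algebraMap R T0 r ∈ eI I T0 ∧ x1 - algebraMap R T1 r ∈ eI I T1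
  /-- the `β i` span `H¹`. -/
  span : ∀ y : T01, ∃ (c : Fin g → R) (x0 : T0) (x1 : T1), y = ∑ i, c i • β i + r0 x0 + r1 x1
  /-- the `β i` are linearly independent in `H¹`. -/
  indep : ∀ (c : Fin g → R) (x0 : T0) (x1 : T1), ∑ i, c i • β i + r0 x0 + r1 x1 = 0 → ∀ i, c i = 0

variable {R T0 T1 T01 g}
variable (P : Pkg R T0 T1 T01 g) (m : Ideal R)

theorem Pkg.eI_le_comap_r0 : eI m T0 ≤ (eI m T01).comap (P.r0 : T0 →+* T01) := by
  rw [← Ideal.map_le_iff_le_comap, Ideal.map_map]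
  have : (P.r0 : T0 →+* T01).comp (algebraMap R T0) = algebraMap R T01 := by
    ext r; simp
  rw [this]

theorem Pkg.eI_le_comap_r1 : eI m T1 ≤ (eI m T01).comap (P.r1 : T1 →+* T01) := by
  rw [← Ideal.map_le_iff_le_comap, Ideal.map_map]
  have : (P.r1 : T1 →+* T01).comp (algebraMap R T1) = algebraMap R T01 := by
    ext r; simp
  rw [this]

/-- The coboundary `U0 × U1 → U01`, `(u0, u1) ↦ r0 u0 * r1 u1`. -/
def Pkg.bdryHom : unitsOne (eI m T0) × unitsOne (eI m T1) →* unitsOne (eI m T01) :=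
  MonoidHom.coprod (unitsOneMap (P.r0 : T0 →+* T01) (P.eI_le_comap_r0 m))
    (unitsOneMap (P.r1 : T1 →+* T01) (P.eI_le_comap_r1 m))

/-- The subgroup of coboundaries in `U01`. -/
def Pkg.bdry : Subgroup (unitsOne (eI m T01)) := (P.bdryHom m).range

/-- `Ĵ(R, m) = (1 + m T01)ˣ / ((1 + m T0)ˣ (1 + m T1)ˣ)`. -/
abbrev Pkg.Jhat : Type _ := unitsOne (eI m T01) ⧸ P.bdry m

/-- The class map `U01 → Ĵ`. -/
def Pkg.cls : unitsOne (eI m T01) →* P.Jhat m := QuotientGroup.mk' (P.bdry m)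

theorem Pkg.cls_surjective : Function.Surjective (P.cls m) := QuotientGroup.mk'_surjective _

theorem Pkg.cls_eq_cls_iff {u v : unitsOne (eI m T01)} :
    P.cls m u = P.cls m v ↔ ∃ (u0 : unitsOne (eI m T0)) (u1 : unitsOne (eI m T1)),
      (v : T01ˣ) = u * Units.map (P.r0 : T0 →* T01) u0 * Units.map (P.r1 : T1 →* T01) u1 := by
  unfold Pkg.cls
  rw [QuotientGroup.mk'_eq_mk']
  constructor
  · rintro ⟨z, hz, rfl⟩
    obtain ⟨⟨u0, u1⟩, rfl⟩ := hz
    refine ⟨u0, u1, ?_⟩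
    simp [Pkg.bdryHom, mul_assoc]
    rfl
  · rintro ⟨u0, u1, h⟩
    refine ⟨P.bdryHom m (u0, u1), ⟨(u0, u1), rfl⟩, ?_⟩
    ext
    rw [h]
    simp [Pkg.bdryHom, mul_assoc]

variable {m}

/-- `∏ (1 + aᵢ βᵢ)` as an element of `U01`. -/
noncomputable def Pkg.phiUnit (hm : IsNilpotent m) (a : Fin g → m) : unitsOne (eI m T01) :=
  ∏ i, oneAddUnit (isNilpotent_map (algebraMap R T01) hm) ((a i : R) • P.β i) (by
    rw [Algebra.smul_def]
    exact Ideal.mul_mem_right _ _ (Ideal.mem_map_of_mem _ (a i).2))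

/-- `φ : m^g → Ĵ(R, m)`. -/
noncomputable def Pkg.phi (hm : IsNilpotent m) (a : Fin g → m) : P.Jhat m :=
  P.cls m (P.phiUnit hm a)

end Pkg

end Fermat.Agent.T1.CechFormal70
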