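import Fermat.Agent.T1.CechFormal70.BaseChange

/-!
# Čech formal group: Theorem 2 (functoriality of `Ĵ` and naturality of `φ`)

`PkgHom P P' f` is a morphism of `R`-level packages over an arbitrary ring homomorphism
`f : R →+* R'` (so semilinear base changes `f ⊗ σ` are covered). `Pkg.JhatMap` is the induced
group homomorphism `Ĵ(R, m) → Ĵ(R', m')` for `m ≤ m'.comap f`, and `Pkg.JhatMap_phi` says
`Ĵ(f) (φ a) = φ (f ∘ a)`. At the `W`-level: `CechData.pkgHom D f` for a `W`-algebra map `f`, and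
`CechData.pkgHomSemi` for a semilinear automorphism of the chart system fixing the `b i`.
(helper70, T1a brick G3 FORMAL.)
-/

namespace Fermat.Agent.T1.CechFormal70

open scoped BigOperators TensorProduct

section Abstract

variable {R T0 T1 T01 : Type*} [CommRing R] [CommRing T0] [CommRing T1] [CommRing T01]
  [Algebra R T0] [Algebra R T1] [Algebra R T01]
  {R' T0' T1' T01' : Type*} [CommRing R'] [CommRing T0'] [CommRing T1'] [CommRing T01']
  [Algebra R' T0'] [Algebra R' T1'] [Algebra R' T01'] {g : ℕ}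

/-- A morphism of Čech packages over a ring homomorphism `f : R →+* R'`. -/
structure PkgHom (P : Pkg R T0 T1 T01 g) (P' : Pkg R' T0' T1' T01' g) (f : R →+* R') where
  t0 : T0 →+* T0'
  t1 : T1 →+* T1'
  t01 : T01 →+* T01'
  comm0 : ∀ r, t0 (algebraMap R T0 r) = algebraMap R' T0' (f r)
  comm1 : ∀ r, t1 (algebraMap R T1 r) = algebraMap R' T1' (f r)
  comm01 : ∀ r, t01 (algebraMap R T01 r) = algebraMap R' T01' (f r)
  r0_comm : ∀ x, t01 (P.r0 x) = P'.r0 (t0 x)
  r1_comm : ∀ x, t01 (P.r1 x) = P'.r1 (t1 x)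
  β_comm : ∀ i, t01 (P.β i) = P'.β i

theorem eI_le_comap_of_comm {T T' : Type*} [CommRing T] [CommRing T'] [Algebra R T]
    [Algebra R' T'] {f : R →+* R'} (t : T →+* T')
    (comm : ∀ r, t (algebraMap R T r) = algebraMap R' T' (f r)) {m : Ideal R} {m' : Ideal R'}
    (hm : m ≤ m'.comap f) : eI m T ≤ (eI m' T').comap t := by
  unfold eI
  rw [Ideal.map_le_iff_le_comap]
  intro r hr
  rw [Ideal.mem_comap, Ideal.mem_comap, comm]
  exact Ideal.mem_map_of_mem _ (hm hr)

variable {P : Pkg R T0 T1 T01 g} {P' : Pkg R' T0' T1' T01' g} {f : R →+* R'}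

/-- The map on `U01` induced by a morphism of packages. -/
def PkgHom.u01 (h : PkgHom P P' f) {m : Ideal R} {m' : Ideal R'} (hm : m ≤ m'.comap f) :
    unitsOne (eI m T01) →* unitsOne (eI m' T01') :=
  unitsOneMap h.t01 (eI_le_comap_of_comm h.t01 h.comm01 hm)

theorem PkgHom.bdry_le (h : PkgHom P P' f) {m : Ideal R} {m' : Ideal R'}
    (hm : m ≤ m'.comap f) : P.bdry m ≤ (P'.bdry m').comap (h.u01 hm) := by
  rintro _ ⟨⟨u0, u1⟩, rfl⟩
  refine ⟨(unitsOneMap h.t0 (eI_le_comap_of_comm h.t0 h.comm0 hm) u0,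
    unitsOneMap h.t1 (eI_le_comap_of_comm h.t1 h.comm1 hm) u1), ?_⟩
  apply Subtype.ext
  apply Units.ext
  simp [Pkg.bdryHom, PkgHom.u01, h.r0_comm, h.r1_comm]

/-- **Functoriality**: `Ĵ(R, m) → Ĵ(R', m')`. -/
def Pkg.JhatMap (h : PkgHom P P' f) {m : Ideal R} {m' : Ideal R'} (hm : m ≤ m'.comap f) :
    P.Jhat m →* P'.Jhat m' :=
  QuotientGroup.map (P.bdry m) (P'.bdry m') (h.u01 hm) (h.bdry_le hm)

@[simp] theorem Pkg.JhatMap_cls (h : PkgHom P P' f) {m : Ideal R} {m' : Ideal R'}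
    (hm : m ≤ m'.comap f) (u : unitsOne (eI m T01)) :
    Pkg.JhatMap h hm (P.cls m u) = P'.cls m' (h.u01 hm u) := rfl

theorem PkgHom.u01_phiUnit (h : PkgHom P P' f) {m : Ideal R} {m' : Ideal R'}
    (hm : m ≤ m'.comap f) (hnil : IsNilpotent m) (hnil' : IsNilpotent m') (a : Fin g → m) :
    h.u01 hm (P.phiUnit hnil a) = P'.phiUnit hnil' (fun i => ⟨f (a i), hm (a i).2⟩) := by
  apply Subtype.ext
  apply Units.ext
  rw [PkgHom.u01, coe_unitsOneMap, P.coe_phiUnit, P'.coe_phiUnit]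
  simp [Pkg.phiT, Algebra.smul_def, h.comm01, h.β_comm]

/-- **Theorem 2** (naturality of `φ`): `Ĵ(f) (φ a) = φ (f ∘ a)`. -/
theorem Pkg.JhatMap_phi (h : PkgHom P P' f) {m : Ideal R} {m' : Ideal R'}
    (hm : m ≤ m'.comap f) (hnil : IsNilpotent m) (hnil' : IsNilpotent m') (a : Fin g → m) :
    Pkg.JhatMap h hm (P.phi hnil a) = P'.phi hnil' (fun i => ⟨f (a i), hm (a i).2⟩) := by
  unfold Pkg.phi
  rw [Pkg.JhatMap_cls, h.u01_phiUnit hm hnil hnil']

/-- Naturality of the coordinates. -/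
theorem Pkg.coord_JhatMap (h : PkgHom P P' f) {m : Ideal R} {m' : Ideal R'}
    (hm : m ≤ m'.comap f) (hnil : IsNilpotent m) (hnil' : IsNilpotent m') (z : P.Jhat m) :
    P'.coord hnil' (Pkg.JhatMap h hm z) = fun i => ⟨f (P.coord hnil z i), hm (P.coord hnil z i).2⟩ := by
  conv_lhs => rw [← P.phi_coord hnil z, Pkg.JhatMap_phi h hm hnil hnil', P'.coord_phi]

/-- The identity morphism. -/
def PkgHom.id (P : Pkg R T0 T1 T01 g) : PkgHom P P (RingHom.id R) where
  t0 := RingHom.id _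
  t1 := RingHom.id _
  t01 := RingHom.id _
  comm0 _ := rfl
  comm1 _ := rfl
  comm01 _ := rfl
  r0_comm _ := rfl
  r1_comm _ := rfl
  β_comm _ := rfl

theorem Pkg.JhatMap_id (P : Pkg R T0 T1 T01 g) (m : Ideal R)
    (hmm : m ≤ m.comap (RingHom.id R)) (z : P.Jhat m) :
    Pkg.JhatMap (PkgHom.id P) hmm z = z := by
  obtain ⟨u, rfl⟩ := P.cls_surjective m z
  rw [Pkg.JhatMap_cls]
  congr 1

variable {R'' T0'' T1'' T01'' : Type*} [CommRing R''] [CommRing T0''] [CommRing T1'']
  [CommRing T01''] [Algebra R'' T0''] [Algebra R'' T1''] [Algebra R'' T01'']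
  {P'' : Pkg R'' T0'' T1'' T01'' g} {f' : R' →+* R''}

/-- Composition of morphisms. -/
def PkgHom.comp (h' : PkgHom P' P'' f') (h : PkgHom P P' f) : PkgHom P P'' (f'.comp f) where
  t0 := h'.t0.comp h.t0
  t1 := h'.t1.comp h.t1
  t01 := h'.t01.comp h.t01
  comm0 r := by simp [h.comm0, h'.comm0]
  comm1 r := by simp [h.comm1, h'.comm1]
  comm01 r := by simp [h.comm01, h'.comm01]
  r0_comm x := by simp [h.r0_comm, h'.r0_comm]
  r1_comm x := by simp [h.r1_comm, h'.r1_comm]
  β_comm i := by simp [h.β_comm, h'.β_comm]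

theorem Pkg.JhatMap_comp (h' : PkgHom P' P'' f') (h : PkgHom P P' f) {m : Ideal R}
    {m' : Ideal R'} {m'' : Ideal R''} (hm : m ≤ m'.comap f) (hm' : m' ≤ m''.comap f')
    (hmm : m ≤ m''.comap (f'.comp f)) (z : P.Jhat m) :
    Pkg.JhatMap (h'.comp h) hmm z = Pkg.JhatMap h' hm' (Pkg.JhatMap h hm z) := by
  obtain ⟨u, rfl⟩ := P.cls_surjective m z
  rw [Pkg.JhatMap_cls, Pkg.JhatMap_cls, Pkg.JhatMap_cls]
  congr 1

end Abstract

/-! ### Semilinear tensor maps -/

section SemiTensor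

variable {W A A' B B' : Type*} [CommRing W] [CommRing A] [CommRing A'] [CommRing B] [CommRing B']
  [Algebra W A] [Algebra W A'] [Algebra W B] [Algebra W B']

/-- The additive map `a ⊗ b ↦ f a ⊗ τ b` for `σW`-semilinear `f`, `τ`. -/
noncomputable def semiTensorAdd (σW : W →+* W) (f : A →+* A') (τ : B →+* B')
    (hf : ∀ w, f (algebraMap W A w) = algebraMap W A' (σW w))
    (hτ : ∀ w, τ (algebraMap W B w) = algebraMap W B' (σW w)) : A ⊗[W] B →+ A' ⊗[W] B' :=
  TensorProduct.liftAddHom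
    { toFun := fun a =>
        { toFun := fun b => f a ⊗ₜ[W] τ b
          map_zero' := by simp
          map_add' := fun b b' => by simp [TensorProduct.tmul_add] }
      map_zero' := by ext b; simp
      map_add' := fun a a' => by ext b; simp [TensorProduct.add_tmul] }
    (fun w a b => by
      simp only [AddMonoidHom.coe_mk, ZeroHom.coe_mk]
      rw [Algebra.smul_def, Algebra.smul_def, map_mul, map_mul, hf, hτ, ← Algebra.smul_def,
        ← Algebra.smul_def, TensorProduct.smul_tmul])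

theorem semiTensorAdd_tmul (σW : W →+* W) (f : A →+* A') (τ : B →+* B')
    (hf : ∀ w, f (algebraMap W A w) = algebraMap W A' (σW w))
    (hτ : ∀ w, τ (algebraMap W B w) = algebraMap W B' (σW w)) (a : A) (b : B) :
    semiTensorAdd σW f τ hf hτ (a ⊗ₜ b) = f a ⊗ₜ τ b := rfl

/-- The ring homomorphism `A ⊗[W] B → A' ⊗[W] B'`, `a ⊗ b ↦ f a ⊗ τ b`, for `σW`-semilinear ring
homomorphisms `f : A → A'` and `τ : B → B'`. -/
noncomputable def semiTensor (σW : W →+* W) (f : A →+* A') (τ : B →+* B')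
    (hf : ∀ w, f (algebraMap W A w) = algebraMap W A' (σW w))
    (hτ : ∀ w, τ (algebraMap W B w) = algebraMap W B' (σW w)) : A ⊗[W] B →+* A' ⊗[W] B' :=
  { semiTensorAdd σW f τ hf hτ with
    map_one' := by
      show semiTensorAdd σW f τ hf hτ (1 ⊗ₜ 1) = 1
      rw [semiTensorAdd_tmul, map_one, map_one]; rfl
    map_mul' := fun x y => by
      show semiTensorAdd σW f τ hf hτ (x * y) =
        semiTensorAdd σW f τ hf hτ x * semiTensorAdd σW f τ hf hτ y
      induction x using TensorProduct.induction_on with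
      | zero => simp
      | add x x' hx hx' => rw [add_mul, map_add, hx, hx', map_add, add_mul]
      | tmul a b =>
        induction y using TensorProduct.induction_on with
        | zero => simp
        | add y y' hy hy' => rw [mul_add, map_add, hy, hy', map_add, mul_add]
        | tmul a' b' =>
          rw [Algebra.TensorProduct.tmul_mul_tmul, semiTensorAdd_tmul, semiTensorAdd_tmul,
            semiTensorAdd_tmul, Algebra.TensorProduct.tmul_mul_tmul, map_mul, map_mul] }

@[simp]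
theorem semiTensor_tmul (σW : W →+* W) (f : A →+* A') (τ : B →+* B')
    (hf : ∀ w, f (algebraMap W A w) = algebraMap W A' (σW w))
    (hτ : ∀ w, τ (algebraMap W B w) = algebraMap W B' (σW w)) (a : A) (b : B) :
    semiTensor σW f τ hf hτ (a ⊗ₜ b) = f a ⊗ₜ τ b := rfl

end SemiTensor

namespace CechData

variable {W : Type*} {B0 B1 B01 : Type*} [CommRing W] [CommRing B0] [CommRing B1]
    [CommRing B01] [Algebra W B0] [Algebra W B1] [Algebra W B01] {g : ℕ}
    (D : CechData W B0 B1 B01 g)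
    {R R' : Type*} [CommRing R] [CommRing R'] [Algebra W R] [Algebra W R']

/-- A semilinear endomorphism of the chart system `(W, B0, B1, B01)` fixing the `b i`
(in the application: the coefficientwise action of a Galois element on `q`-expansions). -/
structure Semi where
  σW : W →+* W
  σ0 : B0 →+* B0
  σ1 : B1 →+* B1
  σ01 : B01 →+* B01
  semi0 : ∀ w, σ0 (algebraMap W B0 w) = algebraMap W B0 (σW w)
  semi1 : ∀ w, σ1 (algebraMap W B1 w) = algebraMap W B1 (σW w)
  semi01 : ∀ w, σ01 (algebraMap W B01 w) = algebraMap W B01 (σW w)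
  comm0 : ∀ x, σ01 (D.ρ0 x) = D.ρ0 (σ0 x)
  comm1 : ∀ x, σ01 (D.ρ1 x) = D.ρ1 (σ1 x)
  fix_b : ∀ i, σ01 (D.b i) = D.b i

/-- The identity as a semilinear endomorphism. -/
def Semi.one : D.Semi where
  σW := RingHom.id W
  σ0 := RingHom.id B0
  σ1 := RingHom.id B1
  σ01 := RingHom.id B01
  semi0 _ := rfl
  semi1 _ := rfl
  semi01 _ := rfl
  comm0 _ := rfl
  comm1 _ := rfl
  fix_b _ := rfl

/-- **Semilinear base change** of packages: `t_j = f ⊗ σ_j`. -/
noncomputable def pkgHomSemi (S : D.Semi) (f : R →+* R')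
    (hf : ∀ w, f (algebraMap W R w) = algebraMap W R' (S.σW w)) :
    PkgHom (D.pkg R) (D.pkg R') f where
  t0 := semiTensor S.σW f S.σ0 hf S.semi0
  t1 := semiTensor S.σW f S.σ1 hf S.semi1
  t01 := semiTensor S.σW f S.σ01 hf S.semi01
  comm0 r := by simp
  comm1 r := by simp
  comm01 r := by simp
  r0_comm x := by
    induction x using TensorProduct.induction_on with
    | zero => simp
    | tmul r x => simp [S.comm0]
    | add a b ha hb => simp only [map_add, ha, hb]
  r1_comm x := by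
    induction x using TensorProduct.induction_on with
    | zero => simp
    | tmul r x => simp [S.comm1]
    | add a b ha hb => simp only [map_add, ha, hb]
  β_comm i := by simp [S.fix_b]

@[simp] theorem pkgHomSemi_t01_tmul (S : D.Semi) (f : R →+* R')
    (hf : ∀ w, f (algebraMap W R w) = algebraMap W R' (S.σW w)) (r : R) (y : B01) :
    (D.pkgHomSemi S f hf).t01 (r ⊗ₜ[W] y) = f r ⊗ₜ[W] S.σ01 y := rfl

/-- **Base change** of packages along a `W`-algebra map `f : R →ₐ[W] R'`: `t_j = f ⊗ id`. -/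
noncomputable def pkgHom (f : R →ₐ[W] R') : PkgHom (D.pkg R) (D.pkg R') (f : R →+* R') where
  t0 := (Algebra.TensorProduct.map f (AlgHom.id W B0) : R ⊗[W] B0 →+* R' ⊗[W] B0)
  t1 := (Algebra.TensorProduct.map f (AlgHom.id W B1) : R ⊗[W] B1 →+* R' ⊗[W] B1)
  t01 := (Algebra.TensorProduct.map f (AlgHom.id W B01) : R ⊗[W] B01 →+* R' ⊗[W] B01)
  comm0 r := by simp
  comm1 r := by simp
  comm01 r := by simp
  r0_comm x := by
    induction x using TensorProduct.induction_on with
    | zero => simp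
    | tmul r x => simp
    | add a b ha hb => simp only [map_add, ha, hb]
  r1_comm x := by
    induction x using TensorProduct.induction_on with
    | zero => simp
    | tmul r x => simp
    | add a b ha hb => simp only [map_add, ha, hb]
  β_comm i := by simp

@[simp] theorem pkgHom_t01_tmul (f : R →ₐ[W] R') (r : R) (y : B01) :
    (D.pkgHom f).t01 (r ⊗ₜ[W] y) = f r ⊗ₜ[W] y := rfl

/-- `Ĵ(f) : Ĵ(R, m) → Ĵ(R', m')` at the `W`-level. -/
noncomputable def JhatMap (f : R →ₐ[W] R') {m : Ideal R} {m' : Ideal R'}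
    (hm : m ≤ m'.comap (f : R →+* R')) : (D.pkg R).Jhat m →* (D.pkg R').Jhat m' :=
  Pkg.JhatMap (D.pkgHom f) hm

/-- **Theorem 2** at the `W`-level. -/
theorem JhatMap_phi (f : R →ₐ[W] R') {m : Ideal R} {m' : Ideal R'}
    (hm : m ≤ m'.comap (f : R →+* R')) (hnil : IsNilpotent m) (hnil' : IsNilpotent m')
    (a : Fin g → m) :
    D.JhatMap f hm ((D.pkg R).phi hnil a) = (D.pkg R').phi hnil' (fun i => ⟨f (a i), hm (a i).2⟩) :=
  Pkg.JhatMap_phi (D.pkgHom f) hm hnil hnil' a

/-- `Ĵ(f ⊗ σ) : Ĵ(R, m) → Ĵ(R', m')` for a semilinear base change. -/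
noncomputable def JhatMapSemi (S : D.Semi) (f : R →+* R')
    (hf : ∀ w, f (algebraMap W R w) = algebraMap W R' (S.σW w)) {m : Ideal R} {m' : Ideal R'}
    (hm : m ≤ m'.comap f) : (D.pkg R).Jhat m →* (D.pkg R').Jhat m' :=
  Pkg.JhatMap (D.pkgHomSemi S f hf) hm

/-- **Theorem 2**, semilinear version: `Ĵ(f ⊗ σ) (φ a) = φ (f ∘ a)` when `σ01` fixes the `b i`. -/
theorem JhatMapSemi_phi (S : D.Semi) (f : R →+* R')
    (hf : ∀ w, f (algebraMap W R w) = algebraMap W R' (S.σW w)) {m : Ideal R} {m' : Ideal R'}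
    (hm : m ≤ m'.comap f) (hnil : IsNilpotent m) (hnil' : IsNilpotent m') (a : Fin g → m) :
    D.JhatMapSemi S f hf hm ((D.pkg R).phi hnil a)
      = (D.pkg R').phi hnil' (fun i => ⟨f (a i), hm (a i).2⟩) :=
  Pkg.JhatMap_phi (D.pkgHomSemi S f hf) hm hnil hnil' a

end CechData

end Fermat.Agent.T1.CechFormal70
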