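import Fermat.Agent.T1.CechFormal70.Bridge

/-!
# `Ĵ(R, m) ↪ Pic X_R`

The group homomorphism `jhatToPic : Ĵ(R, m) →* Pic X_R`, `[u] ↦ cechClass u`; it is injective for
nilpotent `m`, sends `φ a` to the class of the Čech line of `∏ (1 + aᵢ ⊗ bᵢ)`, is natural in `R`,
and its image is the set of Čech classes dying in `Pic X_{R'}` (`R' = R/m`). With Theorem 3 this
gives the group-law property (GL) of `Red20/CoordFun` for `F := aeval (D.F N)`.
(helper70, T1a brick G3 FORMAL.)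
-/

set_option autoImplicit false
set_option linter.unusedSectionVars false

open TensorProduct

namespace Fermat.Agent.T1.CechFormal70

open Fermat.Agent.Jac Fermat.Agent.Jac.JGroup85Pic Fermat.Agent.Jac.BaseChange75
open Fermat.Agent.T1.RedIface75 Fermat.Agent.T1.Red11
open scoped Fermat.Agent.Jac.BaseChange75

universe u

variable {W B0 B1 B01 : Type u} [CommRing W] [CommRing B0] [CommRing B1] [CommRing B01]
  [Algebra W B0] [Algebra W B1] [Algebra W B01] [Algebra B0 B01] [Algebra B1 B01]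
  [IsScalarTower W B0 B01] [IsScalarTower W B1 B01] {g : ℕ}
  (c0 : TwoChart W B0 B1 B01) (D : CechData W B0 B1 B01 g)
  (hD0 : ∀ x, D.ρ0 x = algebraMap B0 B01 x) (hD1 : ∀ x, D.ρ1 x = algebraMap B1 B01 x)
  (R : Type u) [CommRing R] [Algebra W R]

/-- `U01(m) → Pic X_R`, `u ↦ cechClass u`. -/
noncomputable def u01ToPic (m : Ideal R) :
    unitsOne (eI m (R ⊗[W] B01)) →* LinePic (c0.baseChange R) :=
  (cechClassHom (c0.baseChange R)).comp (unitsOne (eI m (R ⊗[W] B01))).subtype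

include hD0 hD1 in
theorem bdry_le_ker_u01ToPic (m : Ideal R) :
    (D.pkg R).bdry m ≤ (u01ToPic c0 R m).ker := by
  rintro _ ⟨⟨u0, u1⟩, rfl⟩
  rw [MonoidHom.mem_ker]
  show cechClass (c0.baseChange R) _ = 1
  rw [cechClass_eq_one_iff]
  refine ⟨u0, u1, ?_⟩
  simp only [Pkg.bdryHom, MonoidHom.coprod_apply, Subgroup.subtype_apply, Subgroup.coe_mul,
    Units.val_mul, coe_unitsOneMap, RingHom.coe_coe]
  rw [pkg_r0_eq_algebraMap D hD0, pkg_r1_eq_algebraMap D hD1]

/-- **`Ĵ(R, m) → Pic X_R`**, `[u] ↦ cechClass u`. -/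
noncomputable def jhatToPic (m : Ideal R) : (D.pkg R).Jhat m →* LinePic (c0.baseChange R) :=
  QuotientGroup.lift ((D.pkg R).bdry m) (u01ToPic c0 R m) (bdry_le_ker_u01ToPic c0 D hD0 hD1 R m)

@[simp] theorem jhatToPic_cls (m : Ideal R) (u : unitsOne (eI m (R ⊗[W] B01))) :
    jhatToPic c0 D hD0 hD1 R m ((D.pkg R).cls m u)
      = cechClass (c0.baseChange R) (u : (R ⊗[W] B01)ˣ) := rfl

theorem jhatToPic_phi {m : Ideal R} (hm : IsNilpotent m) (a : Fin g → m) :
    jhatToPic c0 D hD0 hD1 R m ((D.pkg R).phi hm a)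
      = cechClass (c0.baseChange R) ((D.pkg R).phiUnit hm a : (R ⊗[W] B01)ˣ) := rfl

/-- `Ĵ(R, m) → Pic X_R` is injective for nilpotent `m`. -/
theorem jhatToPic_injective {m : Ideal R} (hm : IsNilpotent m) :
    Function.Injective (jhatToPic c0 D hD0 hD1 R m) := by
  intro x y h
  obtain ⟨u, rfl⟩ := (D.pkg R).cls_surjective m x
  obtain ⟨v, rfl⟩ := (D.pkg R).cls_surjective m y
  rw [jhatToPic_cls, jhatToPic_cls, cechClass_eq_cechClass_iff] at h
  obtain ⟨a0, a1, h⟩ := h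
  rw [(D.pkg R).cls_eq_cls_iff_units hm]
  refine ⟨a0, a1, ?_⟩
  rw [h]
  apply Units.ext
  simp only [Units.val_mul, Units.coe_map, MonoidHom.coe_coe]
  rw [pkg_r0_eq_algebraMap D hD0, pkg_r1_eq_algebraMap D hD1]

include hD0 hD1 in
/-- Multiplicativity in `Pic`: a product formula in `Ĵ` gives the product formula for Čech classes
(the group-law property (GL) of `Red20/CoordFun`). -/
theorem cechClass_phiUnit_mul {m : Ideal R} (hm : IsNilpotent m) (a a' a'' : Fin g → m)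
    (h : (D.pkg R).phi hm a * (D.pkg R).phi hm a' = (D.pkg R).phi hm a'') :
    cechClass (c0.baseChange R) ((D.pkg R).phiUnit hm a : (R ⊗[W] B01)ˣ)
      * cechClass (c0.baseChange R) ((D.pkg R).phiUnit hm a' : (R ⊗[W] B01)ˣ)
      = cechClass (c0.baseChange R) ((D.pkg R).phiUnit hm a'' : (R ⊗[W] B01)ˣ) := by
  rw [← jhatToPic_phi c0 D hD0 hD1 R hm, ← jhatToPic_phi c0 D hD0 hD1 R hm,
    ← jhatToPic_phi c0 D hD0 hD1 R hm, ← map_mul, h]

include hD0 hD1 in
/-- Equality of Čech classes of `φ`-units forces equality of the coordinates. -/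
theorem eq_of_cechClass_phiUnit_eq {m : Ideal R} (hm : IsNilpotent m) (a a' : Fin g → m)
    (h : cechClass (c0.baseChange R) ((D.pkg R).phiUnit hm a : (R ⊗[W] B01)ˣ)
      = cechClass (c0.baseChange R) ((D.pkg R).phiUnit hm a' : (R ⊗[W] B01)ˣ)) : a = a' := by
  rw [← jhatToPic_phi c0 D hD0 hD1 R hm, ← jhatToPic_phi c0 D hD0 hD1 R hm] at h
  exact (D.pkg R).phi_injective hm (jhatToPic_injective c0 D hD0 hD1 R hm h)

variable (R' : Type u) [CommRing R'] [Algebra W R'] [Algebra R R'] [IsScalarTower W R R']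

/-- Naturality of `Ĵ → Pic` in the `W`-algebra `R`. -/
theorem map_jhatToPic {m : Ideal R} {m' : Ideal R'}
    (hmm : m ≤ m'.comap ((IsScalarTower.toAlgHom W R R' : R →ₐ[W] R') : R →+* R'))
    (z : (D.pkg R).Jhat m) :
    PicX.map c0 R R' (jhatToPic c0 D hD0 hD1 R m z)
      = jhatToPic c0 D hD0 hD1 R' m' (D.JhatMap (IsScalarTower.toAlgHom W R R') hmm z) := by
  obtain ⟨u, rfl⟩ := (D.pkg R).cls_surjective m z
  rw [jhatToPic_cls, PicX.map_cechClass]
  unfold CechData.JhatMap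
  rw [Pkg.JhatMap_cls, jhatToPic_cls]
  congr 1

variable (hsurj : Function.Surjective (algebraMap R R'))
  (hnil : IsNilpotent (RingHom.ker (algebraMap R R')))

include hsurj in
/-- Classes in the image of `Ĵ(R, m)` die in `Pic X_{R'}` (`m = ker (R → R')`). -/
theorem map_jhatToPic_eq_one (z : (D.pkg R).Jhat (RingHom.ker (algebraMap R R'))) :
    PicX.map c0 R R' (jhatToPic c0 D hD0 hD1 R _ z) = 1 := by
  obtain ⟨u, rfl⟩ := (D.pkg R).cls_surjective _ z
  rw [jhatToPic_cls, PicX.map_cechClass]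
  have hu : ((u : (R ⊗[W] B01)ˣ) : R ⊗[W] B01) - 1
      ∈ eI (RingHom.ker (algebraMap R R')) (R ⊗[W] B01) := u.2
  have h1 := (CechData.mem_eI_ker_iff (IsScalarTower.toAlgHom W R R') hsurj B01 _).1 hu
  rw [← algebraMap_left_eq_map, map_sub, map_one, sub_eq_zero] at h1
  have : Units.map (algebraMap (R ⊗[W] B01) (R' ⊗[W] B01) : R ⊗[W] B01 →* R' ⊗[W] B01)
      (u : (R ⊗[W] B01)ˣ) = 1 := Units.ext h1
  rw [this, cechClass_one]

include hsurj hnil in
/-- **Image of `Ĵ(R, m) → Pic X_R`**: exactly the Čech classes which die in `Pic X_{R'}`. -/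
theorem cechClass_mem_range_jhatToPic_iff (u : (R ⊗[W] B01)ˣ) :
    cechClass (c0.baseChange R) u ∈ (jhatToPic c0 D hD0 hD1 R (RingHom.ker (algebraMap R R'))).range
      ↔ PicX.map c0 R R' (cechClass (c0.baseChange R) u) = 1 := by
  constructor
  · rintro ⟨z, hz⟩
    rw [← hz]
    exact map_jhatToPic_eq_one c0 D hD0 hD1 R R' hsurj z
  · intro h
    obtain ⟨a, ha, -⟩ := existsUnique_cechClass_eq c0 D hD0 hD1 R R' hsurj hnil u h
    exact ⟨(D.pkg R).phi hnil a, by rw [jhatToPic_phi, ha]⟩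

end Fermat.Agent.T1.CechFormal70
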