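import Fermat.Agent.T1.CechFormal70.Defs

/-!
# Čech formal group: Theorem 1 (`φ : m^g → Ĵ(R, m)` is bijective), abstract `R`-level version

Proof by successive approximation modulo the powers `m^k` (the small-extension argument carried out
inside the fixed ring `R`): surjectivity uses only `span`; injectivity uses `H⁰` (`h0`, `inj`) and
`indep`, each relative to the ideals `m^k`. (helper70, T1a brick G3 FORMAL.)
-/

namespace Fermat.Agent.T1.CechFormal70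

open scoped BigOperators

section Ring

variable {T : Type*} [CommRing T]

/-- In a nilpotent ideal, `1 + x` has an inverse of the same shape. -/
theorem exists_one_add_inv {J : Ideal T} (hJ : IsNilpotent J) {x : T} (hx : x ∈ J) :
    ∃ x' ∈ J, (1 + x) * (1 + x') = 1 := by
  let u := oneAddUnit hJ x hx
  have hu : ((u⁻¹ : unitsOne J) : Tˣ) ∈ unitsOne J := (u⁻¹).2
  refine ⟨(((u⁻¹ : unitsOne J) : Tˣ) : T) - 1, hu, ?_⟩
  have h1 : (1 + x) = ((u : Tˣ) : T) := rfl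
  rw [h1]
  have : ((u : Tˣ) : T) * (((u⁻¹ : unitsOne J) : Tˣ) : T) = 1 := by
    rw [← Units.val_mul, ← Subgroup.coe_mul, mul_inv_cancel]; rfl
  linear_combination this

/-- Product linearisation, part (i). -/
theorem prod_one_add_sub_one_mem {ι : Type*} (𝔞 : Ideal T) (s : Finset ι) (p : ι → T)
    (hp : ∀ i, p i ∈ 𝔞) : ∏ i ∈ s, (1 + p i) - 1 ∈ 𝔞 := by
  classical
  induction s using Finset.induction_on with
  | empty => simp
  | insert j s hj ih =>
    rw [Finset.prod_insert hj]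
    have : (1 + p j) * ∏ i ∈ s, (1 + p i) - 1
        = (1 + p j) * (∏ i ∈ s, (1 + p i) - 1) + p j := by ring
    rw [this]
    exact 𝔞.add_mem (𝔞.mul_mem_left _ ih) (hp j)

/-- Product linearisation, part (ii). -/
theorem prod_one_add_add_sub_mem {ι : Type*} (𝔞 𝔠 J : Ideal T) (h1 : 𝔞 * 𝔠 ≤ J) (h2 : 𝔠 * 𝔠 ≤ J)
    (s : Finset ι) (p q : ι → T) (hp : ∀ i, p i ∈ 𝔞) (hq : ∀ i, q i ∈ 𝔠) :
    ∏ i ∈ s, (1 + (p i + q i)) - ∏ i ∈ s, (1 + p i) - ∑ i ∈ s, q i ∈ J := by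
  classical
  induction s using Finset.induction_on with
  | empty => simp
  | insert j s hj ih =>
    rw [Finset.prod_insert hj, Finset.prod_insert hj, Finset.sum_insert hj]
    set X := ∏ i ∈ s, (1 + (p i + q i))
    set P := ∏ i ∈ s, (1 + p i) with hP
    set S := ∑ i ∈ s, q i
    have hS : S ∈ 𝔠 := 𝔠.sum_mem fun i _ => hq i
    have hP1 : P - 1 ∈ 𝔞 := prod_one_add_sub_one_mem 𝔞 s p hp
    have key : (1 + (p j + q j)) * X - (1 + p j) * P - (q j + S)
        = p j * S + (P - 1) * q j + q j * S + (1 + (p j + q j)) * (X - P - S) := by ring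
    rw [key]
    refine J.add_mem (J.add_mem (J.add_mem ?_ ?_) ?_) (J.mul_mem_left _ ih)
    · exact h1 (Ideal.mul_mem_mul (hp j) hS)
    · exact h1 (Ideal.mul_mem_mul hP1 (hq j))
    · exact h2 (Ideal.mul_mem_mul (hq j) hS)

/-- Product linearisation: `∏ (1 + (p + q)) ≡ ∏ (1 + p) · (1 + ∑ q)` modulo `J`. -/
theorem prod_one_add_add_sub_mul_mem {ι : Type*} (𝔞 𝔠 J : Ideal T) (h1 : 𝔞 * 𝔠 ≤ J)
    (h2 : 𝔠 * 𝔠 ≤ J) (s : Finset ι) (p q : ι → T) (hp : ∀ i, p i ∈ 𝔞) (hq : ∀ i, q i ∈ 𝔠) :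
    ∏ i ∈ s, (1 + (p i + q i)) - (∏ i ∈ s, (1 + p i)) * (1 + ∑ i ∈ s, q i) ∈ J := by
  have hS : ∑ i ∈ s, q i ∈ 𝔠 := 𝔠.sum_mem fun i _ => hq i
  have hP1 := prod_one_add_sub_one_mem 𝔞 s p hp
  have key : ∏ i ∈ s, (1 + (p i + q i)) - (∏ i ∈ s, (1 + p i)) * (1 + ∑ i ∈ s, q i)
      = (∏ i ∈ s, (1 + (p i + q i)) - ∏ i ∈ s, (1 + p i) - ∑ i ∈ s, q i)
        - (∏ i ∈ s, (1 + p i) - 1) * ∑ i ∈ s, q i := by ring
  rw [key]
  exact J.sub_mem (prod_one_add_add_sub_mem 𝔞 𝔠 J h1 h2 s p q hp hq)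
    (h1 (Ideal.mul_mem_mul hP1 hS))

end Ring

section Pkg

variable {R T0 T1 T01 : Type*} [CommRing R] [CommRing T0] [CommRing T1] [CommRing T01]
  [Algebra R T0] [Algebra R T1] [Algebra R T01] {g : ℕ} (P : Pkg R T0 T1 T01 g)

theorem smul_mem_eI {T : Type*} [CommRing T] [Algebra R T] {I : Ideal R} {r : R} (hr : r ∈ I)
    (t : T) : r • t ∈ eI I T := by
  rw [Algebra.smul_def]
  exact Ideal.mul_mem_right _ _ (Ideal.mem_map_of_mem _ hr)

theorem eI_mono {T : Type*} [CommRing T] [Algebra R T] {I I' : Ideal R} (h : I ≤ I') :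
    eI I T ≤ eI I' T := Ideal.map_mono h

theorem eI_pow_succ_le {T : Type*} [CommRing T] [Algebra R T] (m : Ideal R) (k : ℕ) :
    eI (m ^ (k + 1)) T ≤ eI (m ^ k) T := eI_mono (Ideal.pow_le_pow_right (Nat.le_succ k))

theorem eI_pow_le {T : Type*} [CommRing T] [Algebra R T] (m : Ideal R) {k : ℕ} (hk : 1 ≤ k) :
    eI (m ^ k) T ≤ eI m T := eI_mono (Ideal.pow_le_self (by omega))

theorem eI_mul_eI_pow_le {T : Type*} [CommRing T] [Algebra R T] (m : Ideal R) (k : ℕ) :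
    eI m T * eI (m ^ k) T ≤ eI (m ^ (k + 1)) T := by
  unfold eI
  rw [← Ideal.map_mul, ← pow_succ']

theorem eI_pow_mul_eI_pow_le {T : Type*} [CommRing T] [Algebra R T] (m : Ideal R) {k : ℕ}
    (hk : 1 ≤ k) : eI (m ^ k) T * eI (m ^ k) T ≤ eI (m ^ (k + 1)) T := by
  unfold eI
  rw [← Ideal.map_mul, ← pow_add]
  exact Ideal.map_mono (Ideal.pow_le_pow_right (by omega))

/-- `span` relative to an ideal `I`. -/
theorem Pkg.span_I (I : Ideal R) {y : T01} (hy : y ∈ eI I T01) :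
    ∃ (c : Fin g → R) (x0 : T0) (x1 : T1), (∀ i, c i ∈ I) ∧ x0 ∈ eI I T0 ∧ x1 ∈ eI I T1 ∧
      y = ∑ i, c i • P.β i + P.r0 x0 + P.r1 x1 := by
  have hy' : y ∈ I • (⊤ : Submodule R T01) := by
    rw [Ideal.smul_top_eq_map]; exact hy
  refine Submodule.smul_induction_on hy' ?_ ?_
  · intro r hr n _
    obtain ⟨c, x0, x1, rfl⟩ := P.span n
    refine ⟨fun i => r * c i, r • x0, r • x1, fun i => I.mul_mem_right _ hr, smul_mem_eI hr _,
      smul_mem_eI hr _, ?_⟩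
    simp only [smul_add, Finset.smul_sum, map_smul, mul_smul]
  · rintro x y ⟨c, x0, x1, hc, h0, h1, rfl⟩ ⟨c', x0', x1', hc', h0', h1', rfl⟩
    refine ⟨fun i => c i + c' i, x0 + x0', x1 + x1', fun i => I.add_mem (hc i) (hc' i),
      Ideal.add_mem _ h0 h0', Ideal.add_mem _ h1 h1', ?_⟩
    simp only [add_smul, Finset.sum_add_distrib, map_add]
    abel

/-- `indep` relative to an ideal `I`. -/
theorem Pkg.indep_I (I : Ideal R) (c : Fin g → R) (x0 : T0) (x1 : T1)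
    (h : ∑ i, c i • P.β i + P.r0 x0 + P.r1 x1 ∈ eI I T01) : ∀ i, c i ∈ I := by
  obtain ⟨c', x0', x1', hc', -, -, e⟩ := P.span_I I h
  have : ∑ i, (c i - c' i) • P.β i + P.r0 (x0 - x0') + P.r1 (x1 - x1') = 0 := by
    simp only [sub_smul, Finset.sum_sub_distrib, map_sub]
    linear_combination e
  intro i
  have h2 := P.indep _ _ _ this i
  have : c i = c' i := by linear_combination h2
  rw [this]; exact hc' i


/-- The ring-level product `∏ (1 + aᵢ βᵢ)`. -/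
def Pkg.phiT (a : Fin g → R) : T01 := ∏ i, (1 + a i • P.β i)

theorem Pkg.r0_mem {I : Ideal R} {x : T0} (hx : x ∈ eI I T0) : P.r0 x ∈ eI I T01 :=
  P.eI_le_comap_r0 I hx

theorem Pkg.r1_mem {I : Ideal R} {x : T1} (hx : x ∈ eI I T1) : P.r1 x ∈ eI I T01 :=
  P.eI_le_comap_r1 I hx

theorem Pkg.phiT_sub_one_mem {m : Ideal R} {a : Fin g → R} (ha : ∀ i, a i ∈ m) :
    P.phiT a - 1 ∈ eI m T01 :=
  prod_one_add_sub_one_mem _ _ _ fun i => smul_mem_eI (ha i) _

/-- `φ̃(a + c) ≡ φ̃(a) (1 + ∑ cᵢ βᵢ)` modulo `m^(k+1)` when `c ∈ (m^k)^g`. -/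
theorem Pkg.phiT_add_sub_mem {m : Ideal R} {k : ℕ} (hk : 1 ≤ k) {a c : Fin g → R}
    (ha : ∀ i, a i ∈ m) (hc : ∀ i, c i ∈ m ^ k) :
    P.phiT (fun i => a i + c i) - P.phiT a * (1 + ∑ i, c i • P.β i) ∈ eI (m ^ (k + 1)) T01 := by
  have := prod_one_add_add_sub_mul_mem (eI m T01) (eI (m ^ k) T01) (eI (m ^ (k + 1)) T01)
    (eI_mul_eI_pow_le m k) (eI_pow_mul_eI_pow_le m hk) Finset.univ (fun i => a i • P.β i)
    (fun i => c i • P.β i) (fun i => smul_mem_eI (ha i) _) (fun i => smul_mem_eI (hc i) _)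
  simpa only [Pkg.phiT, add_smul] using this

/-- `H⁰` of units modulo `m^k`. -/
theorem Pkg.h0_units {m : Ideal R} (hm : IsNilpotent m) {k : ℕ} (hk : 1 ≤ k) {x0 : T0} {x1 : T1}
    (hx0 : x0 ∈ eI m T0) (hx1 : x1 ∈ eI m T1)
    (h : (1 + P.r0 x0) * (1 + P.r1 x1) - 1 ∈ eI (m ^ k) T01) :
    ∃ r : R, r - 1 ∈ m ∧ (1 + x0) - algebraMap R T0 r ∈ eI (m ^ k) T0 ∧
      (1 + x1) * algebraMap R T1 r - 1 ∈ eI (m ^ k) T1 := by
  obtain ⟨x1', hx1', hinv⟩ := exists_one_add_inv (isNilpotent_map (algebraMap R T1) hm) hx1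
  have hinv' : (1 + P.r1 x1) * (1 + P.r1 x1') = 1 := by
    have := congrArg P.r1 hinv
    simpa only [map_mul, map_add, map_one] using this
  have h2 : P.r0 (1 + x0) - P.r1 (1 + x1') ∈ eI (m ^ k) T01 := by
    have : P.r0 (1 + x0) - P.r1 (1 + x1')
        = ((1 + P.r0 x0) * (1 + P.r1 x1) - 1) * (1 + P.r1 x1') := by
      simp only [map_add, map_one]
      linear_combination (-(1 + P.r0 x0)) * hinv'
    rw [this]
    exact Ideal.mul_mem_right _ _ h
  obtain ⟨r, hr0, hr1⟩ := P.h0 (m ^ k) _ _ h2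
  refine ⟨r, ?_, hr0, ?_⟩
  · apply P.inj m
    · have : algebraMap R T0 (r - 1) = x0 - ((1 + x0) - algebraMap R T0 r) := by
        rw [map_sub, map_one]; ring
      rw [this]
      exact Ideal.sub_mem _ hx0 (eI_pow_le m hk hr0)
    · have : algebraMap R T1 (r - 1) = x1' - ((1 + x1') - algebraMap R T1 r) := by
        rw [map_sub, map_one]; ring
      rw [this]
      exact Ideal.sub_mem _ hx1' (eI_pow_le m hk hr1)
  · have : (1 + x1) * algebraMap R T1 r - 1 = -((1 + x1) * ((1 + x1') - algebraMap R T1 r)) := by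
      linear_combination hinv
    rw [this]
    exact neg_mem (Ideal.mul_mem_left _ _ hr1)

theorem mul_sub_one_mem {T : Type*} [CommRing T] (J : Ideal T) {a b : T} (ha : a - 1 ∈ J)
    (hb : b - 1 ∈ J) : a * b - 1 ∈ J := by
  have : a * b - 1 = a * (b - 1) + (a - 1) := by ring
  rw [this]
  exact J.add_mem (J.mul_mem_left _ hb) ha

theorem one_add_sub_one_mem {T : Type*} [CommRing T] (J : Ideal T) {x : T} (hx : x ∈ J) :
    (1 + x) - 1 ∈ J := by simpa using hx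

/-- Surjectivity of `φ` modulo `m^k`. -/
theorem Pkg.surj_mod {m : Ideal R} (hm : IsNilpotent m) (k : ℕ) (hk : 1 ≤ k) (u : T01)
    (hu : u - 1 ∈ eI m T01) :
    ∃ a : Fin g → R, (∀ i, a i ∈ m) ∧ ∃ x0 ∈ eI m T0, ∃ x1 ∈ eI m T1,
      u - P.phiT a * (1 + P.r0 x0) * (1 + P.r1 x1) ∈ eI (m ^ k) T01 := by
  induction k, hk using Nat.le_induction with
  | base =>
    exact ⟨0, fun i => m.zero_mem, 0, zero_mem _, 0, zero_mem _, by simpa [Pkg.phiT] using hu⟩
  | succ k hk ih =>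
    obtain ⟨a, ha, x0, hx0, x1, hx1, h⟩ := ih
    have hv1 : P.phiT a * (1 + P.r0 x0) * (1 + P.r1 x1) - 1 ∈ eI m T01 :=
      mul_sub_one_mem _ (mul_sub_one_mem _ (P.phiT_sub_one_mem ha)
        (one_add_sub_one_mem _ (P.r0_mem hx0))) (one_add_sub_one_mem _ (P.r1_mem hx1))
    obtain ⟨v', -, hvv'⟩ := exists_one_add_inv (isNilpotent_map (algebraMap R T01) hm) hv1
    have hyk : (u - P.phiT a * (1 + P.r0 x0) * (1 + P.r1 x1)) * (1 + v') ∈ eI (m ^ k) T01 :=
      Ideal.mul_mem_right _ _ h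
    obtain ⟨c, z0, z1, hc, hz0, hz1, e⟩ := P.span_I (m ^ k) hyk
    have hu_eq : u = P.phiT a * (1 + P.r0 x0) * (1 + P.r1 x1) *
        (1 + (∑ i, c i • P.β i + P.r0 z0 + P.r1 z1)) := by
      rw [← e]
      linear_combination (-(u - P.phiT a * (1 + P.r0 x0) * (1 + P.r1 x1))) * hvv'
    have hE := P.phiT_add_sub_mem hk ha hc
    have hS : ∑ i, c i • P.β i ∈ eI (m ^ k) T01 :=
      Ideal.sum_mem _ fun i _ => smul_mem_eI (hc i) _
    have hZ0 := P.r0_mem hz0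
    have hZ1 := P.r1_mem hz1
    have hJ := eI_pow_mul_eI_pow_le (T := T01) m hk
    refine ⟨fun i => a i + c i, fun i => m.add_mem (ha i) (Ideal.pow_le_self (by omega) (hc i)),
      x0 + z0 + x0 * z0, ?_, x1 + z1 + x1 * z1, ?_, ?_⟩
    · exact Ideal.add_mem _ (Ideal.add_mem _ hx0 (eI_pow_le m hk hz0)) (Ideal.mul_mem_right _ _ hx0)
    · exact Ideal.add_mem _ (Ideal.add_mem _ hx1 (eI_pow_le m hk hz1)) (Ideal.mul_mem_right _ _ hx1)
    · have key : u - P.phiT (fun i => a i + c i) * (1 + P.r0 (x0 + z0 + x0 * z0)) *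
          (1 + P.r1 (x1 + z1 + x1 * z1))
          = (1 + P.r0 x0) * (1 + P.r1 x1) *
            (-(P.phiT a * ((∑ i, c i • P.β i) * P.r0 z0 + (∑ i, c i • P.β i) * P.r1 z1
                + P.r0 z0 * P.r1 z1 + (∑ i, c i • P.β i) * P.r0 z0 * P.r1 z1))
              - (P.phiT (fun i => a i + c i) - P.phiT a * (1 + ∑ i, c i • P.β i))
                * (1 + P.r0 z0) * (1 + P.r1 z1)) := by
        rw [hu_eq]
        simp only [map_add, map_mul]
        ring
      rw [key]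
      refine Ideal.mul_mem_left _ _ (Ideal.sub_mem _ (neg_mem (Ideal.mul_mem_left _ _ ?_))
        (Ideal.mul_mem_right _ _ (Ideal.mul_mem_right _ _ hE)))
      refine Ideal.add_mem _ (Ideal.add_mem _ (Ideal.add_mem _ ?_ ?_) ?_) ?_
      · exact hJ (Ideal.mul_mem_mul hS hZ0)
      · exact hJ (Ideal.mul_mem_mul hS hZ1)
      · exact hJ (Ideal.mul_mem_mul hZ0 hZ1)
      · exact Ideal.mul_mem_right _ _ (hJ (Ideal.mul_mem_mul hS hZ0))

/-- Injectivity of `φ` modulo `m^k`. -/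
theorem Pkg.inj_mod {m : Ideal R} (hm : IsNilpotent m) (k : ℕ) (hk : 1 ≤ k) (a a' : Fin g → R)
    (ha : ∀ i, a i ∈ m) (ha' : ∀ i, a' i ∈ m) (x0 : T0) (x1 : T1) (hx0 : x0 ∈ eI m T0)
    (hx1 : x1 ∈ eI m T1)
    (h : P.phiT a - P.phiT a' * (1 + P.r0 x0) * (1 + P.r1 x1) ∈ eI (m ^ k) T01) :
    ∀ i, a i - a' i ∈ m ^ k := by
  induction k, hk using Nat.le_induction with
  | base => intro i; simpa using m.sub_mem (ha i) (ha' i)
  | succ k hk ih =>
    have hc := ih (eI_pow_succ_le m k h)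
    have hac : a = fun i => a' i + (a i - a' i) := by ext; ring
    have hE := P.phiT_add_sub_mem hk ha' hc
    rw [← hac] at hE
    have hS : ∑ i, (a i - a' i) • P.β i ∈ eI (m ^ k) T01 :=
      Ideal.sum_mem _ fun i _ => smul_mem_eI (hc i) _
    have h3 : P.phiT a' * ((1 + ∑ i, (a i - a' i) • P.β i) - (1 + P.r0 x0) * (1 + P.r1 x1))
        ∈ eI (m ^ (k + 1)) T01 := by
      have : P.phiT a' * ((1 + ∑ i, (a i - a' i) • P.β i) - (1 + P.r0 x0) * (1 + P.r1 x1))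
          = (P.phiT a - P.phiT a' * (1 + P.r0 x0) * (1 + P.r1 x1))
            - (P.phiT a - P.phiT a' * (1 + ∑ i, (a i - a' i) • P.β i)) := by ring
      rw [this]; exact Ideal.sub_mem _ h hE
    obtain ⟨w, -, hw⟩ := exists_one_add_inv (isNilpotent_map (algebraMap R T01) hm)
      (P.phiT_sub_one_mem ha')
    have h4 : (1 + ∑ i, (a i - a' i) • P.β i) - (1 + P.r0 x0) * (1 + P.r1 x1)
        ∈ eI (m ^ (k + 1)) T01 := by
      have : (1 + ∑ i, (a i - a' i) • P.β i) - (1 + P.r0 x0) * (1 + P.r1 x1)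
          = (1 + w) * (P.phiT a' * ((1 + ∑ i, (a i - a' i) • P.β i)
              - (1 + P.r0 x0) * (1 + P.r1 x1))) := by
        linear_combination (-((1 + ∑ i, (a i - a' i) • P.β i)
          - (1 + P.r0 x0) * (1 + P.r1 x1))) * hw
      rw [this]; exact Ideal.mul_mem_left _ _ h3
    have h5 : (1 + P.r0 x0) * (1 + P.r1 x1) - 1 ∈ eI (m ^ k) T01 := by
      have : (1 + P.r0 x0) * (1 + P.r1 x1) - 1 = ∑ i, (a i - a' i) • P.β i
          - ((1 + ∑ i, (a i - a' i) • P.β i) - (1 + P.r0 x0) * (1 + P.r1 x1)) := by ring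
      rw [this]; exact Ideal.sub_mem _ hS (eI_pow_succ_le m k h4)
    obtain ⟨r, hr, hz0, hz1⟩ := P.h0_units hm hk hx0 hx1 h5
    obtain ⟨s, hrs⟩ : ∃ s : R, r * s = 1 := by
      obtain ⟨s, -, hrs⟩ := exists_one_add_inv hm hr
      exact ⟨1 + s, by linear_combination hrs⟩
    have hρτ : algebraMap R T01 r * algebraMap R T01 s = 1 := by
      rw [← map_mul, hrs, map_one]
    apply P.indep_I (m ^ (k + 1)) _ (-(s • ((1 + x0) - algebraMap R T0 r)))
      (-((1 + x1) * algebraMap R T1 r - 1))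
    have hZ0 := P.r0_mem hz0
    have hZ1 := P.r1_mem hz1
    have key : ∑ i, (a i - a' i) • P.β i + P.r0 (-(s • ((1 + x0) - algebraMap R T0 r)))
        + P.r1 (-((1 + x1) * algebraMap R T1 r - 1))
        = ((1 + ∑ i, (a i - a' i) • P.β i) - (1 + P.r0 x0) * (1 + P.r1 x1))
          + algebraMap R T01 s * (P.r0 ((1 + x0) - algebraMap R T0 r)
            * P.r1 ((1 + x1) * algebraMap R T1 r - 1)) := by
      simp only [map_neg, map_sub, map_add, map_mul, map_one, AlgHom.commutes,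
        Algebra.smul_def]
      linear_combination (-(1 + P.r0 x0 - algebraMap R T01 r) * (1 + P.r1 x1)) * hρτ
    rw [key]
    exact Ideal.add_mem _ h4 (Ideal.mul_mem_left _ _
      (eI_pow_mul_eI_pow_le (T := T01) m hk (Ideal.mul_mem_mul hZ0 hZ1)))

theorem Pkg.coe_phiUnit {m : Ideal R} (hm : IsNilpotent m) (a : Fin g → m) :
    (((P.phiUnit hm a : unitsOne (eI m T01)) : T01ˣ) : T01) = P.phiT fun i => (a i : R) := by
  unfold Pkg.phiUnit Pkg.phiT
  rw [Subgroup.val_finsetProd, Units.coe_prod]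
  rfl

theorem eI_pow_eq_bot {T : Type*} [CommRing T] [Algebra R T] {m : Ideal R} {N : ℕ}
    (hN : m ^ N = ⊥) : eI (m ^ N) T = ⊥ := by
  unfold eI; rw [hN, Ideal.map_bot]

/-- **Theorem 1**, surjectivity. -/
theorem Pkg.phi_surjective {m : Ideal R} (hm : IsNilpotent m) : Function.Surjective (P.phi hm) := by
  intro z
  obtain ⟨u, rfl⟩ := P.cls_surjective m z
  obtain ⟨N, hN⟩ : ∃ N, m ^ N = ⊥ := id hm
  have hu : ((u : T01ˣ) : T01) - 1 ∈ eI m T01 := u.2
  obtain ⟨a, ha, x0, hx0, x1, hx1, h⟩ := P.surj_mod hm (N + 1) (by omega) _ hu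
  have hN' : m ^ (N + 1) = ⊥ := by rw [pow_succ, hN]; simp
  rw [eI_pow_eq_bot hN', Ideal.mem_bot, sub_eq_zero] at h
  refine ⟨fun i => ⟨a i, ha i⟩, ?_⟩
  unfold Pkg.phi
  rw [P.cls_eq_cls_iff]
  refine ⟨oneAddUnit (isNilpotent_map _ hm) x0 hx0, oneAddUnit (isNilpotent_map _ hm) x1 hx1, ?_⟩
  ext
  rw [h, Units.val_mul, Units.val_mul, P.coe_phiUnit]
  simp

/-- **Theorem 1**, injectivity. -/
theorem Pkg.phi_injective {m : Ideal R} (hm : IsNilpotent m) : Function.Injective (P.phi hm) := by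
  intro a a' h
  unfold Pkg.phi at h
  rw [P.cls_eq_cls_iff] at h
  obtain ⟨u0, u1, h⟩ := h
  obtain ⟨N, hN⟩ : ∃ N, m ^ N = ⊥ := id hm
  have hN' : m ^ (N + 1) = ⊥ := by rw [pow_succ, hN]; simp
  have h' := congrArg (fun u : T01ˣ => (u : T01)) h
  simp only [Units.val_mul, P.coe_phiUnit] at h'
  have hu0 : ((u0 : T0ˣ) : T0) - 1 ∈ eI m T0 := u0.2
  have hu1 : ((u1 : T1ˣ) : T1) - 1 ∈ eI m T1 := u1.2
  have key := P.inj_mod hm (N + 1) (by omega) (fun i => (a' i : R)) (fun i => (a i : R))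
    (fun i => (a' i).2) (fun i => (a i).2) (((u0 : T0ˣ) : T0) - 1) (((u1 : T1ˣ) : T1) - 1) hu0 hu1
    (by
      rw [h']
      simp)
  funext i
  have := key i
  rw [hN', Ideal.mem_bot, sub_eq_zero] at this
  exact Subtype.ext this.symm

/-- **Theorem 1**: `φ : m^g → Ĵ(R, m)` is bijective for every nilpotent ideal `m`. -/
theorem Pkg.phi_bijective {m : Ideal R} (hm : IsNilpotent m) : Function.Bijective (P.phi hm) :=
  ⟨P.phi_injective hm, P.phi_surjective hm⟩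

/-- Coordinates on `Ĵ(R, m)`: the inverse of `φ`. -/
noncomputable def Pkg.coord {m : Ideal R} (hm : IsNilpotent m) : P.Jhat m ≃ (Fin g → m) :=
  (Equiv.ofBijective _ (P.phi_bijective hm)).symm

@[simp] theorem Pkg.coord_phi {m : Ideal R} (hm : IsNilpotent m) (a : Fin g → m) :
    P.coord hm (P.phi hm a) = a :=
  (Equiv.ofBijective _ (P.phi_bijective hm)).symm_apply_apply a

@[simp] theorem Pkg.phi_coord {m : Ideal R} (hm : IsNilpotent m) (z : P.Jhat m) :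
    P.phi hm (P.coord hm z) = z :=
  (Equiv.ofBijective _ (P.phi_bijective hm)).apply_symm_apply z

end Pkg

end Fermat.Agent.T1.CechFormal70
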