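import Fermat.Agent.T1.CechFormal70.PicMap
import Fermat.Agent.T1.Red11.MapComp
import Fermat.Agent.Jac.LiftNilp

/-!
# Lines trivial modulo a nilpotent ideal are Čech lines

`R → R'` a surjective map of `W`-algebras with nilpotent kernel `m`. A class `x ∈ Pic X_R` which
dies in `Pic X_{R'}` is represented by a line with FREE chart modules (lifting of the
trivialisations, `Jac/LiftNilp`), hence is a Čech class, hence (by `Bridge`) equals
`cechClass (∏ (1 + aᵢ ⊗ bᵢ))` for a UNIQUE `a ∈ m^g`:
`ker (Pic X_R → Pic X_{R'}) = image of Ĵ(R, m) ≅ m^g`.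
(helper70, T1a: existence half of R-d COORD-EU.)
-/

set_option autoImplicit false
set_option linter.unusedSectionVars false

open TensorProduct

namespace Fermat.Agent.T1.CechFormal70

open Fermat.Agent.Jac Fermat.Agent.Jac.JSmooth85Alg Fermat.Agent.Jac.JGroup85Pic
open Fermat.Agent.Jac.LineOps39 Fermat.Agent.Jac.BaseChange75
open Fermat.Agent.T1.RedIface75 Fermat.Agent.T1.Red11
open scoped Fermat.Agent.Jac.BaseChange75

universe u

/-- An invertible module whose base change along a surjection with nilpotent kernel is free of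
rank one is free of rank one. -/
theorem nonempty_equiv_of_baseChange_equiv {S S' : Type u} [CommRing S] [CommRing S']
    [Algebra S S'] (hs : Function.Surjective (algebraMap S S'))
    (hnil : ∀ x ∈ RingHom.ker (algebraMap S S'), IsNilpotent x)
    (N : Type u) [AddCommGroup N] [Module S N] [Module.Invertible S N]
    (e : S' ⊗[S] N ≃ₗ[S'] S') : Nonempty (S ≃ₗ[S] N) := by
  obtain ⟨f, -⟩ := LiftNilp.exists_linearEquiv_of_baseChange_equiv (M := S) (N := N) hs
    (LiftNilp.ker_le_jacobson_of_nil hnil) (TensorProduct.AlgebraTensorModule.rid S S' S') e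
  exact ⟨f⟩

variable {W B0 B1 B01 : Type u} [CommRing W] [CommRing B0] [CommRing B1] [CommRing B01]
  [Algebra W B0] [Algebra W B1] [Algebra W B01] [Algebra B0 B01] [Algebra B1 B01]
  [IsScalarTower W B0 B01] [IsScalarTower W B1 B01] {g : ℕ}
  (c0 : TwoChart W B0 B1 B01) (D : CechData W B0 B1 B01 g)
  (hD0 : ∀ x, D.ρ0 x = algebraMap B0 B01 x) (hD1 : ∀ x, D.ρ1 x = algebraMap B1 B01 x)
  (R : Type u) [CommRing R] [Algebra W R]
  (R' : Type u) [CommRing R'] [Algebra W R'] [Algebra R R'] [IsScalarTower W R R']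
  (hsurj : Function.Surjective (algebraMap R R'))
  (hnil : IsNilpotent (RingHom.ker (algebraMap R R')))

include hsurj in
theorem algebraMap_left_surjective (B : Type u) [CommRing B] [Algebra W B] :
    Function.Surjective (algebraMap (R ⊗[W] B) (R' ⊗[W] B)) := by
  have h1 : Function.Surjective
      (Algebra.TensorProduct.map (IsScalarTower.toAlgHom W R R') (AlgHom.id W B)) :=
    Algebra.TensorProduct.map_surjective _ _ hsurj Function.surjective_id
  intro y
  obtain ⟨x, hx⟩ := h1 y
  exact ⟨x, by rw [algebraMap_left_eq_map, hx]⟩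

include hsurj hnil in
theorem ker_algebraMap_left_nil (B : Type u) [CommRing B] [Algebra W B] :
    ∀ x ∈ RingHom.ker (algebraMap (R ⊗[W] B) (R' ⊗[W] B)), IsNilpotent x := by
  intro x hx
  rw [RingHom.mem_ker, algebraMap_left_eq_map] at hx
  exact isNilpotent_of_mem (isNilpotent_map (algebraMap R (R ⊗[W] B)) hnil)
    ((CechData.mem_eI_ker_iff (IsScalarTower.toAlgHom W R R') hsurj B x).2 hx)

include hsurj hnil in
/-- **Existence half of COORD-EU**: a class on `X_R` which dies on `X_{R'}` is a Čech class. -/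
theorem exists_cechClass_of_map_eq_one (x : PicX c0 R) (hx : PicX.map c0 R R' x = 1) :
    ∃ u : (R ⊗[W] B01)ˣ, x = cechClass (c0.baseChange R) u := by
  obtain ⟨L, hL, rfl⟩ := LinePic.exists_rep x
  rw [LinePic.one_def] at hx
  obtain ⟨h⟩ := PicX.exists_liftData_of_map_eq c0 R R' hL isLine_unit hx
  have := hL.inv0
  have := hL.inv1
  obtain ⟨e0⟩ := nonempty_equiv_of_baseChange_equiv (algebraMap_left_surjective R R' hsurj B0)
    (ker_algebraMap_left_nil R R' hsurj hnil B0) L.N0 h.e0
  obtain ⟨e1⟩ := nonempty_equiv_of_baseChange_equiv (algebraMap_left_surjective R R' hsurj B1)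
    (ker_algebraMap_left_nil R R' hsurj hnil B1) L.N1 h.e1
  exact ⟨transUnit L e0 e1, exists_cechClass_eq_of_triv (c0.baseChange R) L hL e0 e1⟩

include hD0 hD1 hsurj hnil in
/-- **COORD-EU over a nilpotent thickening**: every class on `X_R` dying on `X_{R'}` is
`cechClass (∏ (1 + aᵢ ⊗ bᵢ))` for a unique `a ∈ m^g`, `m = ker (R → R')`. -/
theorem existsUnique_coord_of_map_eq_one (x : PicX c0 R) (hx : PicX.map c0 R R' x = 1) :
    ∃! a : Fin g → RingHom.ker (algebraMap R R'),
      x = cechClass (c0.baseChange R) ((D.pkg R).phiUnit hnil a : (R ⊗[W] B01)ˣ) := by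
  obtain ⟨u, rfl⟩ := exists_cechClass_of_map_eq_one c0 R R' hsurj hnil x hx
  exact existsUnique_cechClass_eq c0 D hD0 hD1 R R' hsurj hnil u hx

include hD0 hD1 hsurj hnil in
/-- `ker (Pic X_R → Pic X_{R'}) = image of Ĵ(R, m)`. -/
theorem ker_map_eq_range_jhatToPic :
    (PicX.map c0 R R').ker
      = (jhatToPic c0 D hD0 hD1 R (RingHom.ker (algebraMap R R'))).range := by
  ext x
  rw [MonoidHom.mem_ker]
  constructor
  · intro hx
    obtain ⟨u, rfl⟩ := exists_cechClass_of_map_eq_one c0 R R' hsurj hnil x hx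
    exact (cechClass_mem_range_jhatToPic_iff c0 D hD0 hD1 R R' hsurj hnil u).2 hx
  · rintro ⟨z, rfl⟩
    exact map_jhatToPic_eq_one c0 D hD0 hD1 R R' hsurj z

end Fermat.Agent.T1.CechFormal70
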