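import Fermat.Agent.T1.CechFormal70.Functorial

/-!
# Čech formal group: comparison with the full unit cohomology `T01ˣ / (T0ˣ · T1ˣ)`

`Ĵ(R, m)` is defined with the units `≡ 1 mod m` only. The Picard group sees ALL units of the
charts. This file shows that nothing is lost: for `u, v ∈ U01(m)`, `v = u · r0 w0 · r1 w1` with
ARBITRARY units `w_j` of `T_j` already forces `[u] = [v]` in `Ĵ(R, m)` (uses `H⁰(R/m) = R/m`).
Consequence (`Pkg.existsUnique_coord_of_units`): every unit `u` of `T01` which is a coboundary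
modulo `m` is `∏ (1 + aᵢ βᵢ) · r0 v0 · r1 v1` for a UNIQUE `a ∈ m^g` — the form consumed by the
COORD bricks (`cechClass u = cechClass u' ↔ u' = u · r0 w0 · r1 w1`).
(helper70, T1a brick G3 FORMAL.)
-/

namespace Fermat.Agent.T1.CechFormal70

open scoped BigOperators

variable {R T0 T1 T01 : Type*} [CommRing R] [CommRing T0] [CommRing T1] [CommRing T01]
  [Algebra R T0] [Algebra R T1] [Algebra R T01] {g : ℕ} (P : Pkg R T0 T1 T01 g)

theorem comm_group_aux {G : Type*} [CommGroup G] {A A' x y x' y' : G}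
    (h : A * x' * y' = A' * x * y) : A = A' * (x * x'⁻¹) * (y * y'⁻¹) := by
  have h1 : A' * (x * x'⁻¹) * (y * y'⁻¹) = (A' * x * y) * x'⁻¹ * y'⁻¹ := by ac_rfl
  have h2 : (A * x' * y') * x'⁻¹ * y'⁻¹ = A * (x' * x'⁻¹) * (y' * y'⁻¹) := by ac_rfl
  rw [h1, ← h, h2, mul_inv_cancel, mul_inv_cancel, mul_one, mul_one]

/-- An element of `R` congruent to a unit of `T0` and to a unit of `T1` modulo `m`, compatibly,
is a unit of `R` (for nilpotent `m`). -/
theorem Pkg.exists_unit_of_h0 {m : Ideal R} (hm : IsNilpotent m) {w0 : T0ˣ} {w1 : T1ˣ}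
    (h : (P.r0 (w0 : T0)) * P.r1 (w1 : T1) - 1 ∈ eI m T01) :
    ∃ c : Rˣ, (w0 : T0) - algebraMap R T0 c ∈ eI m T0 ∧
      ((w1⁻¹ : T1ˣ) : T1) - algebraMap R T1 c ∈ eI m T1 := by
  -- `r0 w0 ≡ r1 w1⁻¹` and `r0 w0⁻¹ ≡ r1 w1` modulo `m`
  have h1 : P.r0 (w0 : T0) - P.r1 ((w1⁻¹ : T1ˣ) : T1) ∈ eI m T01 := by
    have : P.r0 (w0 : T0) - P.r1 ((w1⁻¹ : T1ˣ) : T1)
        = ((P.r0 (w0 : T0)) * P.r1 (w1 : T1) - 1) * P.r1 ((w1⁻¹ : T1ˣ) : T1) := by
      have e : P.r1 (w1 : T1) * P.r1 ((w1⁻¹ : T1ˣ) : T1) = 1 := by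
        rw [← map_mul, Units.mul_inv, map_one]
      linear_combination (-(P.r0 (w0 : T0))) * e
    rw [this]; exact Ideal.mul_mem_right _ _ h
  have h2 : P.r0 ((w0⁻¹ : T0ˣ) : T0) - P.r1 (w1 : T1) ∈ eI m T01 := by
    have : P.r0 ((w0⁻¹ : T0ˣ) : T0) - P.r1 (w1 : T1)
        = -(((P.r0 (w0 : T0)) * P.r1 (w1 : T1) - 1) * P.r0 ((w0⁻¹ : T0ˣ) : T0)) := by
      have e : P.r0 (w0 : T0) * P.r0 ((w0⁻¹ : T0ˣ) : T0) = 1 := by
        rw [← map_mul, Units.mul_inv, map_one]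
      linear_combination (P.r1 (w1 : T1)) * e
    rw [this]; exact neg_mem (Ideal.mul_mem_right _ _ h)
  obtain ⟨c, hc0, hc1⟩ := P.h0 m _ _ h1
  obtain ⟨d, hd0, hd1⟩ := P.h0 m _ _ h2
  -- `c d ≡ 1` modulo `m`
  have hcd : c * d - 1 ∈ m := by
    apply P.inj m
    · have : algebraMap R T0 (c * d - 1)
          = -(((w0 : T0) - algebraMap R T0 c) * algebraMap R T0 d)
            - (w0 : T0) * (((w0⁻¹ : T0ˣ) : T0) - algebraMap R T0 d) := by
        have e : (w0 : T0) * ((w0⁻¹ : T0ˣ) : T0) = 1 := Units.mul_inv w0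
        rw [map_sub, map_mul, map_one]
        linear_combination e
      rw [this]
      exact Ideal.sub_mem _ (neg_mem (Ideal.mul_mem_right _ _ hc0)) (Ideal.mul_mem_left _ _ hd0)
    · have : algebraMap R T1 (c * d - 1)
          = -((((w1⁻¹ : T1ˣ) : T1) - algebraMap R T1 c) * algebraMap R T1 d)
            - ((w1⁻¹ : T1ˣ) : T1) * ((w1 : T1) - algebraMap R T1 d) := by
        have e : ((w1⁻¹ : T1ˣ) : T1) * (w1 : T1) = 1 := Units.inv_mul w1
        rw [map_sub, map_mul, map_one]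
        linear_combination e
      rw [this]
      exact Ideal.sub_mem _ (neg_mem (Ideal.mul_mem_right _ _ hc1)) (Ideal.mul_mem_left _ _ hd1)
  have hunit : IsUnit (c * d) := by
    have := (isNilpotent_of_mem hm hcd).isUnit_one_add
    simpa using this
  exact ⟨(isUnit_of_mul_isUnit_left hunit).unit, hc0, hc1⟩

/-- **Comparison with the full unit cohomology**: two elements of `U01(m)` have the same class in
`Ĵ(R, m)` as soon as they differ by a coboundary of ARBITRARY units of the two charts. -/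
theorem Pkg.cls_eq_cls_iff_units {m : Ideal R} (hm : IsNilpotent m)
    {u v : unitsOne (eI m T01)} :
    P.cls m u = P.cls m v ↔ ∃ (w0 : T0ˣ) (w1 : T1ˣ),
      (v : T01ˣ) = u * Units.map (P.r0 : T0 →* T01) w0 * Units.map (P.r1 : T1 →* T01) w1 := by
  constructor
  · rw [P.cls_eq_cls_iff]
    rintro ⟨u0, u1, h⟩
    exact ⟨u0, u1, h⟩
  · rintro ⟨w0, w1, h⟩
    have hmem : ((u⁻¹ * v : unitsOne (eI m T01)) : T01ˣ) ∈ unitsOne (eI m T01) := (u⁻¹ * v).2
    have hval : ((u⁻¹ * v : unitsOne (eI m T01)) : T01ˣ)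
        = Units.map (P.r0 : T0 →* T01) w0 * Units.map (P.r1 : T1 →* T01) w1 := by
      rw [Subgroup.coe_mul, h, Subgroup.coe_inv]
      group
    have hw : P.r0 (w0 : T0) * P.r1 (w1 : T1) - 1 ∈ eI m T01 := by
      have := hmem
      rw [hval, mem_unitsOne] at this
      simpa using this
    obtain ⟨c, hc0, hc1⟩ := P.exists_unit_of_h0 hm hw
    rw [P.cls_eq_cls_iff]
    refine ⟨⟨w0 * (Units.map (algebraMap R T0 : R →* T0) c)⁻¹, ?_⟩,
      ⟨w1 * Units.map (algebraMap R T1 : R →* T1) c, ?_⟩, ?_⟩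
    · rw [mem_unitsOne]
      have : ((w0 * (Units.map (algebraMap R T0 : R →* T0) c)⁻¹ : T0ˣ) : T0) - 1
          = (((Units.map (algebraMap R T0 : R →* T0) c)⁻¹ : T0ˣ) : T0)
            * ((w0 : T0) - algebraMap R T0 c) := by
        have e : (((Units.map (algebraMap R T0 : R →* T0) c)⁻¹ : T0ˣ) : T0) * algebraMap R T0 c
            = 1 := Units.inv_mul (Units.map (algebraMap R T0 : R →* T0) c)
        rw [Units.val_mul]
        linear_combination e
      rw [this]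
      exact Ideal.mul_mem_left _ _ hc0
    · rw [mem_unitsOne]
      have : ((w1 * Units.map (algebraMap R T1 : R →* T1) c : T1ˣ) : T1) - 1
          = -((w1 : T1) * (((w1⁻¹ : T1ˣ) : T1) - algebraMap R T1 c)) := by
        have e : (w1 : T1) * ((w1⁻¹ : T1ˣ) : T1) = 1 := Units.mul_inv w1
        rw [Units.val_mul]
        simp only [Units.coe_map, MonoidHom.coe_coe]
        linear_combination e
      rw [this]
      exact neg_mem (Ideal.mul_mem_left _ _ hc1)
    · rw [h]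
      apply Units.ext
      simp only [Units.val_mul, Units.coe_map, MonoidHom.coe_coe, map_mul]
      have e0 : P.r0 (((Units.map (algebraMap R T0 : R →* T0) c)⁻¹ : T0ˣ) : T0)
          * P.r1 (algebraMap R T1 c) = 1 := by
        rw [AlgHom.commutes, ← P.r0.commutes, ← map_mul]
        have e : (((Units.map (algebraMap R T0 : R →* T0) c)⁻¹ : T0ˣ) : T0) * algebraMap R T0 c
            = 1 := Units.inv_mul (Units.map (algebraMap R T0 : R →* T0) c)
        rw [e, map_one]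
      linear_combination (-((u : T01ˣ) : T01) * P.r0 (w0 : T0) * P.r1 (w1 : T1)) * e0

/-- **Coordinates for general units**: a unit `u` of `T01` which is a coboundary modulo `m`
is `∏ (1 + aᵢ βᵢ) · r0 v0 · r1 v1` for a unique `a ∈ m^g` (`v0`, `v1` arbitrary units). -/
theorem Pkg.existsUnique_coord_of_units {m : Ideal R} (hm : IsNilpotent m) (u : T01ˣ)
    (w0 : T0ˣ) (w1 : T1ˣ) (h : (u : T01) - P.r0 (w0 : T0) * P.r1 (w1 : T1) ∈ eI m T01) :
    ∃! a : Fin g → m, ∃ (v0 : T0ˣ) (v1 : T1ˣ),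
      u = (P.phiUnit hm a : T01ˣ) * Units.map (P.r0 : T0 →* T01) v0
        * Units.map (P.r1 : T1 →* T01) v1 := by
  -- `u' = u (r0 w0 r1 w1)⁻¹ ∈ U01(m)`
  let z : T01ˣ := Units.map (P.r0 : T0 →* T01) w0 * Units.map (P.r1 : T1 →* T01) w1
  have hu' : u * z⁻¹ ∈ unitsOne (eI m T01) := by
    rw [mem_unitsOne]
    have : ((u * z⁻¹ : T01ˣ) : T01) - 1
        = ((u : T01) - P.r0 (w0 : T0) * P.r1 (w1 : T1)) * ((z⁻¹ : T01ˣ) : T01) := by
      have e : (z : T01) * ((z⁻¹ : T01ˣ) : T01) = 1 := Units.mul_inv z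
      have ez : (z : T01) = P.r0 (w0 : T0) * P.r1 (w1 : T1) := by
        simp [z]
      rw [Units.val_mul, ← ez]
      linear_combination e
    rw [this]
    exact Ideal.mul_mem_right _ _ h
  obtain ⟨a, ha⟩ := P.phi_surjective hm (P.cls m ⟨u * z⁻¹, hu'⟩)
  have hex : ∃ (v0 : T0ˣ) (v1 : T1ˣ),
      u = (P.phiUnit hm a : T01ˣ) * Units.map (P.r0 : T0 →* T01) v0
        * Units.map (P.r1 : T1 →* T01) v1 := by
    unfold Pkg.phi at ha
    rw [P.cls_eq_cls_iff] at ha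
    obtain ⟨u0, u1, e⟩ := ha
    refine ⟨(u0 : T0ˣ) * w0, (u1 : T1ˣ) * w1, ?_⟩
    have e' : u * z⁻¹ = (P.phiUnit hm a : T01ˣ) * Units.map (P.r0 : T0 →* T01) u0
        * Units.map (P.r1 : T1 →* T01) u1 := e
    have : u = (u * z⁻¹) * z := by group
    rw [this, e', map_mul, map_mul]
    simp only [z]
    ac_rfl
  refine ⟨a, hex, ?_⟩
  rintro a' ⟨v0, v1, e'⟩
  obtain ⟨v0', v1', e⟩ := hex
  apply P.phi_injective hm
  unfold Pkg.phi
  rw [P.cls_eq_cls_iff_units hm]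
  refine ⟨v0 * v0'⁻¹, v1 * v1'⁻¹, ?_⟩
  rw [map_mul, map_mul, map_inv, map_inv]
  exact comm_group_aux (e.symm.trans e')

end Fermat.Agent.T1.CechFormal70
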